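import Fermat.Agent.SiegelKlingen.Form
import Fermat.Agent.Eisenstein.LevelP

/-!
# The diagonal Eisenstein series of two lattices

For `A ≤ B` with `p B ≤ A` the orbits `(c, d)` of `B` with `c` in `A` give a series invariant under
`Γ₀(p)`, and the Atkin–Lehner substitution turns it into the series of `(p B, A)`.
-/

set_option autoImplicit false
set_option linter.unusedSectionVars false
set_option linter.style.haveILetI false

noncomputable section

open NumberField InfinitePlace Module Filter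
open UpperHalfPlane hiding I
open Complex (I)
open scoped Real nonZeroDivisors Classical MatrixGroups ModularForm

namespace FA.PadicEulerFactor

open FA.HeckeFE FA.SiegelKlingen FA.Eis

variable {K : Type*} [Field K] [NumberField K] [IsTotallyReal K]
variable (A B : (FractionalIdeal (𝓞 K)⁰ K)ˣ)

/-- `p B`. -/
def pMul (p : ℕ) [NeZero p] : (FractionalIdeal (𝓞 K)⁰ K)ˣ :=
  Units.mk0 (FractionalIdeal.spanSingleton (𝓞 K)⁰ (p : K))
    (FractionalIdeal.spanSingleton_ne_zero_iff.2 (Nat.cast_ne_zero.2 (NeZero.ne p))) * B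

variable {A B}

theorem mem_pMul {p : ℕ} [NeZero p] {x : K} :
    x ∈ (pMul B p : Set K) ↔ x / (p : K) ∈ (B : Set K) := by
  show x ∈ FractionalIdeal.spanSingleton (𝓞 K)⁰ (p : K) * (B : FractionalIdeal (𝓞 K)⁰ K) ↔ _
  rw [FractionalIdeal.mem_singleton_mul]
  have hp : (p : K) ≠ 0 := Nat.cast_ne_zero.2 (NeZero.ne p)
  exact ⟨fun ⟨y, hy, h⟩ => by rw [h, mul_div_cancel_left₀ _ hp]; exact hy,
    fun h => ⟨_, h, (mul_div_cancel₀ _ hp).symm⟩⟩

variable (A B)

/-- The orbits of `B` with first entry in `A`. -/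
abbrev SubOrb : Type _ := {x : Orb B // (repPair B x).1 ∈ (A : Set K)}

/-- The series. -/
def subSum (k : ℕ) (z : ℂ) : ℂ :=
  ∑' x : SubOrb A B, eisTerm k z (repPair B x.1).1 (repPair B x.1).2

variable {A B}
variable {A' B' : (FractionalIdeal (𝓞 K)⁰ K)ˣ}

/-- A map of pairs commuting with scalars gives one of the orbits. -/
theorem exists_orbit_equiv (hAB : ∀ x : K, x ∈ (A : Set K) → x ∈ (B : Set K))
    (hAB' : ∀ x : K, x ∈ (A' : Set K) → x ∈ (B' : Set K)) (φ ψ : K × K → K × K)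
    (hφ : ∀ u c d : K, φ (u * c, u * d) = (u * (φ (c, d)).1, u * (φ (c, d)).2))
    (hψ : ∀ u c d : K, ψ (u * c, u * d) = (u * (ψ (c, d)).1, u * (ψ (c, d)).2))
    (h1 : ∀ q, ψ (φ q) = q) (h2 : ∀ q, φ (ψ q) = q)
    (hmem : ∀ q : K × K, q.1 ∈ (A : Set K) → q.2 ∈ (B : Set K) →
      (φ q).1 ∈ (A' : Set K) ∧ (φ q).2 ∈ (B' : Set K))
    (hmem' : ∀ q : K × K, q.1 ∈ (A' : Set K) → q.2 ∈ (B' : Set K) →
      (ψ q).1 ∈ (A : Set K) ∧ (ψ q).2 ∈ (B : Set K)) :
    ∃ e : SubOrb A B ≃ SubOrb A' B', ∀ x : SubOrb A B, ∃ m, φ (repPair B x.1) =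
      (unitVal m * (repPair B' (e x).1).1, unitVal m * (repPair B' (e x).1).2) := by
  have h0 : ∀ q, φ q = 0 → q = 0 := fun q hq => by
    have hz : ψ 0 = 0 := by
      have := hψ 0 0 0
      simp only [mul_zero, zero_mul] at this
      simpa [Prod.mk_zero_zero] using this
    rw [← h1 q, hq, hz]
  have hne : ∀ x : Orb B, repPair B x ≠ 0 := fun x => (repPair_mem B x).2.2
  have hex : ∀ x : SubOrb A B, ∃ y : SubOrb A' B', ∃ m, φ (repPair B x.1) =
      (unitVal m * (repPair B' y.1).1, unitVal m * (repPair B' y.1).2) := fun x => by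
    obtain ⟨ha, hb⟩ := hmem (repPair B x.1) x.2 (repPair_mem B x.1).2.1
    obtain ⟨⟨y, m⟩, hy⟩ := (pairEquiv B').surjective
      ⟨φ (repPair B x.1), hAB' _ ha, hb, fun h => hne _ (h0 _ h)⟩
    have e := congrArg Subtype.val hy
    rw [pairEquiv_eq] at e
    refine ⟨⟨y, ?_⟩, m, e.symm⟩
    have e1 : (repPair B' y).1 = unitVal (-m) * (φ (repPair B x.1)).1 := by
      rw [← congrArg Prod.fst e, ← mul_assoc, ← unitVal_add, neg_add_cancel, unitVal_zero, one_mul]
    rw [e1]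
    exact unitVal_mul_mem A' _ ha
  choose f m hf using hex
  refine ⟨Equiv.ofBijective f ⟨fun x x' h => ?_, fun y => ?_⟩, fun x => ⟨m x, hf x⟩⟩
  · have e : ∀ z, repPair B z.1 = (unitVal (m z) * (ψ (repPair B' (f z).1)).1,
        unitVal (m z) * (ψ (repPair B' (f z).1)).2) := fun z => by
      rw [← hψ, ← hf z, h1]
    refine Subtype.ext (congrArg Prod.fst ((pairEquiv B).injective (a₁ := (x.1, m x'))
      (a₂ := (x'.1, m x)) (Subtype.ext ?_)))
    rw [pairEquiv_eq, pairEquiv_eq, e x, e x', h, ← mul_assoc, ← mul_assoc, ← mul_assoc,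
      ← mul_assoc, mul_comm (unitVal (m x')) (unitVal (m x))]
  · obtain ⟨ha, hb⟩ := hmem' (repPair B' y.1) y.2 (repPair_mem B' y.1).2.1
    obtain ⟨⟨x, n⟩, hx⟩ := (pairEquiv B).surjective ⟨ψ (repPair B' y.1), hAB _ ha, hb, fun h =>
      (repPair_mem B' y.1).2.2 (by
        rw [← h2 (repPair B' y.1), h]
        have := hφ 0 0 0
        simp only [mul_zero, zero_mul] at this
        simpa [Prod.mk_zero_zero] using this)⟩
    have e := congrArg Subtype.val hx
    rw [pairEquiv_eq] at e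
    have e1 : (repPair B x).1 = unitVal (-n) * (ψ (repPair B' y.1)).1 := by
      rw [← congrArg Prod.fst e, ← mul_assoc, ← unitVal_add, neg_add_cancel, unitVal_zero, one_mul]
    have hxA : (repPair B x).1 ∈ (A : Set K) := e1 ▸ unitVal_mul_mem A _ ha
    refine ⟨⟨x, hxA⟩, Subtype.ext (congrArg Prod.fst
      ((pairEquiv B').injective (a₁ := ((f ⟨x, hxA⟩).1, n + m ⟨x, hxA⟩)) (a₂ := (y.1, 0))
        (Subtype.ext ?_)))⟩
    have h3 := congrArg φ e
    simp only at h3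
    rw [hφ, hf ⟨x, hxA⟩, h2] at h3
    rw [pairEquiv_eq, pairEquiv_eq, unitVal_zero, one_mul, one_mul, unitVal_add, mul_assoc,
      mul_assoc]
    exact h3

/-- `p B ≤ A ≤ B`. -/
structure Nested (p : ℕ) (A B : (FractionalIdeal (𝓞 K)⁰ K)ˣ) : Prop where
  le : ∀ x : K, x ∈ (A : Set K) → x ∈ (B : Set K)
  mul : ∀ x : K, x ∈ (B : Set K) → (p : K) * x ∈ (A : Set K)

theorem Nested.swap {p : ℕ} [NeZero p] (h : Nested p A B) : Nested p (pMul B p) A where
  le x hx := by
    have := h.mul _ (mem_pMul.1 hx)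
    rwa [mul_div_cancel₀ _ (Nat.cast_ne_zero.2 (NeZero.ne p) : (p : K) ≠ 0)] at this
  mul x hx := mem_pMul.2 (by
    rw [mul_div_cancel_left₀ _ (Nat.cast_ne_zero.2 (NeZero.ne p) : (p : K) ≠ 0)]
    exact h.le x hx)

theorem int_mul_mem (i : ℤ) {x : K} (hx : x ∈ (B : Set K)) : x * (i : K) ∈ (B : Set K) := by
  rw [mul_comm, ← zsmul_eq_mul]
  exact ((B : FractionalIdeal (𝓞 K)⁰ K) : Submodule (𝓞 K) K).toAddSubgroup.zsmul_mem hx i

theorem add_mem_lat {x y : K} (hx : x ∈ (B : Set K)) (hy : y ∈ (B : Set K)) :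
    x + y ∈ (B : Set K) :=
  ((B : FractionalIdeal (𝓞 K)⁰ K) : Submodule (𝓞 K) K).add_mem hx hy

/-- **Invariance under `Γ₀(p)`.** -/
theorem subSum_smul {p : ℕ} {k : ℕ} (hk : Even k) (h : Nested p A B) {g : SL(2, ℤ)}
    (hg : (p : ℤ) ∣ g 1 0) (τ : ℍ) :
    subSum A B k ((g • τ : ℍ) : ℂ) = denom g τ ^ (k * finrank ℚ K) * subSum A B k (τ : ℂ) := by
  obtain ⟨den, hden⟩ : ∃ den : ℂ, den = (g 1 0 : ℂ) * τ + (g 1 1 : ℂ) := ⟨_, rfl⟩
  have hd : denom g τ = den := by rw [ModularGroup.denom_apply, hden]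
  have hden0 : den ≠ 0 := hd ▸ denom_ne_zero _ _
  have hdet : (g 0 0 : K) * (g 1 1 : K) - (g 0 1 : K) * (g 1 0 : K) = 1 := by
    have h' : g 0 0 * g 1 1 - g 0 1 * g 1 0 = 1 := by
      rw [← Matrix.det_fin_two g.1]
      exact g.2
    exact_mod_cast h'
  obtain ⟨c', hc'⟩ := hg
  obtain ⟨e, he⟩ := exists_orbit_equiv (A := A) (B := B) (A' := A) (B' := B) h.le h.le
    (fun q => (q.1 * (g 0 0 : K) + q.2 * (g 1 0 : K), q.1 * (g 0 1 : K) + q.2 * (g 1 1 : K)))
    (fun q => (q.1 * (g 1 1 : K) - q.2 * (g 1 0 : K), -q.1 * (g 0 1 : K) + q.2 * (g 0 0 : K)))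
    (fun u c d => Prod.ext (by ring) (by ring)) (fun u c d => Prod.ext (by ring) (by ring))
    (fun q => Prod.ext (by linear_combination q.1 * hdet) (by linear_combination q.2 * hdet))
    (fun q => Prod.ext (by linear_combination q.1 * hdet) (by linear_combination q.2 * hdet))
    (fun q h1 h2 => ⟨add_mem_lat (int_mul_mem _ h1) (by
      rw [hc', show q.2 * (((p : ℤ) * c' : ℤ) : K) = (p : K) * q.2 * (c' : K) by push_cast; ring]
      exact int_mul_mem _ (h.mul _ h2)),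
      add_mem_lat (int_mul_mem _ (h.le _ h1)) (int_mul_mem _ h2)⟩)
    (fun q h1 h2 => ⟨by
      rw [hc', show q.1 * (g 1 1 : K) - q.2 * (((p : ℤ) * c' : ℤ) : K) =
        q.1 * (g 1 1 : K) + (p : K) * q.2 * ((-c' : ℤ) : K) by push_cast; ring]
      exact add_mem_lat (int_mul_mem _ h1) (int_mul_mem _ (h.mul _ h2)), by
      rw [show -q.1 * (g 0 1 : K) = q.1 * ((-(g 0 1) : ℤ) : K) by push_cast; ring]
      exact add_mem_lat (int_mul_mem _ (h.le _ h1)) (int_mul_mem _ h2)⟩)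
  rw [hd, subSum, subSum, ← e.tsum_eq fun y : SubOrb A B =>
    eisTerm k (τ : ℂ) (repPair B y.1).1 (repPair B y.1).2, ← tsum_mul_left]
  refine tsum_congr fun x => ?_
  obtain ⟨m, hm⟩ := he x
  rw [← eisTerm_unit hk (τ : ℂ) m (repPair B (e x).1).1 (repPair B (e x).1).2]
  have e1 := congrArg Prod.fst hm
  have e2 := congrArg Prod.snd hm
  simp only at e1 e2
  rw [← e1, ← e2, eisTerm, eisTerm, ← inv_inj, mul_inv, inv_inv, inv_inv, ← card_places,
    pow_mul, ← Finset.card_univ, ← Finset.prod_const, ← Finset.prod_inv_distrib,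
    ← Finset.prod_mul_distrib]
  refine Finset.prod_congr rfl fun w _ => ?_
  rw [← inv_pow, ← mul_pow]
  congr 1
  rw [UpperHalfPlane.specialLinearGroup_apply]
  simp only [algebraMap_int_eq, eq_intCast, Complex.ofReal_intCast, map_add, map_mul, map_intCast,
    Complex.ofReal_add, Complex.ofReal_mul]
  rw [← hden]
  field_simp
  rw [hden]
  ring

/-- **The substitution** `τ ↦ -1/(p τ)`. -/
theorem subSum_swap {p : ℕ} [NeZero p] {k : ℕ} (hk : Even k) (h : Nested p A B) {z : ℂ}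
    (hz : z ≠ 0) :
    subSum A B k (-((p : ℂ) * z)⁻¹) * (((p : ℂ) * z) ^ (k * finrank ℚ K))⁻¹ =
      subSum (pMul B p) A k z := by
  have hp : (p : K) ≠ 0 := Nat.cast_ne_zero.2 (NeZero.ne p)
  obtain ⟨e, he⟩ := exists_orbit_equiv (A := A) (B := B) (A' := pMul B p) (B' := A) h.le h.swap.le
    (fun q => ((p : K) * q.2, -q.1)) (fun q => (-q.2, q.1 / (p : K)))
    (fun u c d => Prod.ext (by ring) (by ring)) (fun u c d => Prod.ext (by ring) (by ring))
    (fun q => Prod.ext (neg_neg _) (mul_div_cancel_left₀ _ hp))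
    (fun q => Prod.ext (mul_div_cancel₀ _ hp) (neg_neg _))
    (fun q h1 h2 => ⟨mem_pMul.2 (by rwa [mul_div_cancel_left₀ _ hp]), by
      rw [show -q.1 = q.1 * ((-1 : ℤ) : K) by push_cast; ring]
      exact int_mul_mem _ h1⟩)
    (fun q h1 h2 => ⟨by
      rw [show -q.2 = q.2 * ((-1 : ℤ) : K) by push_cast; ring]
      exact int_mul_mem _ h2, mem_pMul.1 h1⟩)
  rw [subSum, subSum, ← e.tsum_eq fun y : SubOrb (pMul B p) A =>
    eisTerm k z (repPair A y.1).1 (repPair A y.1).2, ← tsum_mul_right]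
  refine tsum_congr fun x => ?_
  obtain ⟨m, hm⟩ := he x
  rw [← eisTerm_unit hk z m (repPair A (e x).1).1 (repPair A (e x).1).2]
  have e1 := congrArg Prod.fst hm
  have e2 := congrArg Prod.snd hm
  simp only at e1 e2
  rw [← e1, ← e2, eisTerm, eisTerm, ← mul_inv, ← card_places, pow_mul, ← Finset.card_univ,
    ← Finset.prod_const, ← Finset.prod_mul_distrib]
  congr 1
  refine Finset.prod_congr rfl fun w _ => ?_
  rw [← mul_pow]
  congr 1
  have hpz : (p : ℂ) * z ≠ 0 := mul_ne_zero (Nat.cast_ne_zero.2 (NeZero.ne p)) hz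
  simp only [map_mul, map_neg, map_natCast, Complex.ofReal_mul, Complex.ofReal_neg,
    Complex.ofReal_natCast]
  rw [add_mul, mul_assoc _ (-((p : ℂ) * z)⁻¹), neg_mul, inv_mul_cancel₀ hpz]
  ring

end FA.PadicEulerFactor

end
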