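import Fermat.Agent.SiegelConstant.Divisors
import Mathlib.RingTheory.Ideal.Norm.AbsNorm
import Mathlib.RingTheory.DedekindDomain.Ideal.Lemmas

/-!
# Divisor sums away from `p`

The sum over the divisors prime to `p` is the alternating sum, over the sets of primes above `p`, of
the sums over the multiples of their products.
-/

set_option autoImplicit false
set_option linter.unusedSectionVars false
set_option linter.style.haveILetI false

noncomputable section

open NumberField Module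
open scoped nonZeroDivisors Classical

namespace FA.PadicEulerFactor

open FA.SiegelConstant

variable (K : Type*) [Field K] [NumberField K]

/-- The primes above `p`. -/
def primesAt (p : ℕ) : Finset (Ideal (𝓞 K)) :=
  IsDedekindDomain.primesOverFinset (Ideal.span {(p : ℤ)}) (𝓞 K)

variable {K} {p : ℕ} [Fact p.Prime]

theorem isMaximal_span : (Ideal.span {(p : ℤ)}).IsMaximal :=
  PrincipalIdealRing.isMaximal_of_irreducible
    (Nat.prime_iff_prime_int.1 Fact.out).irreducible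

theorem mem_primesAt {P : Ideal (𝓞 K)} :
    P ∈ primesAt K p ↔ P.IsPrime ∧ P.under ℤ = Ideal.span {(p : ℤ)} := by
  haveI := isMaximal_span (p := p)
  have h0 : Ideal.span {(p : ℤ)} ≠ ⊥ := by
    simpa using (Fact.out : p.Prime).ne_zero
  rw [primesAt, IsDedekindDomain.mem_primesOverFinset_iff h0]
  exact ⟨fun h => ⟨h.1, h.2.over.symm⟩, fun h => ⟨h.1, ⟨h.2.symm⟩⟩⟩

theorem natCast_mem_of_mem {P : Ideal (𝓞 K)} (hP : P ∈ primesAt K p) : (p : 𝓞 K) ∈ P := by
  have h : (p : ℤ) ∈ P.under ℤ := by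
    rw [(mem_primesAt.1 hP).2]
    exact Ideal.mem_span_singleton_self _
  simpa [Ideal.under_def] using h

theorem prime_of_mem {P : Ideal (𝓞 K)} (hP : P ∈ primesAt K p) : Prime P := by
  refine (Ideal.prime_iff_isPrime fun h => ?_).2 (mem_primesAt.1 hP).1
  have := natCast_mem_of_mem hP
  rw [h, Ideal.mem_bot, Nat.cast_eq_zero] at this
  exact (Fact.out : p.Prime).ne_zero this

theorem prod_primesAt_dvd {S : Finset (Ideal (𝓞 K))} (hS : S ⊆ primesAt K p) {c : Ideal (𝓞 K)} :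
    S.prod id ∣ c ↔ ∀ P ∈ S, P ∣ c :=
  ⟨fun h _ hP => (Finset.dvd_prod_of_mem id hP).trans h,
    fun h => Finset.prod_primes_dvd c (fun _ hP => prime_of_mem (hS hP)) h⟩

theorem prod_primesAt_dvd_p {S : Finset (Ideal (𝓞 K))} (hS : S ⊆ primesAt K p) :
    S.prod id ∣ Ideal.span {(p : 𝓞 K)} :=
  (prod_primesAt_dvd hS).2 fun P hP => by
    rw [Ideal.dvd_span_singleton]
    exact natCast_mem_of_mem (hS hP)

theorem prod_primesAt_ne_zero {S : Finset (Ideal (𝓞 K))} (hS : S ⊆ primesAt K p) :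
    S.prod id ≠ 0 :=
  Finset.prod_ne_zero_iff.2 fun _ hP => (prime_of_mem (hS hP)).ne_zero

variable (p) in
/-- No prime above `p` divides `c`. -/
def PrimeToP (c : Ideal (𝓞 K)) : Prop := ∀ P ∈ primesAt K p, ¬P ∣ c

theorem primeToP_iff {c : Ideal (𝓞 K)} : PrimeToP p c ↔ ¬p ∣ Ideal.absNorm c := by
  have hp : p.Prime := Fact.out
  constructor
  · intro h hd
    obtain ⟨P, hP, hu, hdvd⟩ := Ideal.exists_isMaximal_dvd_of_dvd_absNorm' hp c hd
    exact h P (mem_primesAt.2 ⟨hP.isPrime, hu⟩) hdvd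
  · intro h P hP hd
    have h1 : Ideal.absNorm P ∣ p ^ finrank ℤ (𝓞 K) := by
      have := Ideal.absNorm_dvd_absNorm_of_le (Ideal.le_of_dvd (Ideal.dvd_span_singleton.2
        (natCast_mem_of_mem hP)))
      rwa [Ideal.absNorm_span_singleton, ← map_natCast (algebraMap ℤ (𝓞 K)),
        Algebra.norm_algebraMap_of_basis (RingOfIntegers.basis K), Int.natAbs_pow,
        Int.natAbs_natCast, ← Module.finrank_eq_card_basis (RingOfIntegers.basis K)] at this
    obtain ⟨e, -, he⟩ := (Nat.dvd_prime_pow hp).1 h1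
    have he0 : e ≠ 0 := fun h0 => (mem_primesAt.1 hP).1.ne_top (by
      rwa [h0, pow_zero, Ideal.absNorm_eq_one_iff] at he)
    exact h ((dvd_pow_self p he0).trans (he ▸ map_dvd Ideal.absNorm hd))

variable [IsTotallyReal K] {I : Ideal (𝓞 K)}

/-- The sum over the divisors that are multiples of `𝔞`. -/
def multSigma (𝔞 : Ideal (𝓞 K)) (j : ℕ) (I : Ideal (𝓞 K)) : ℕ :=
  ∑' c : {c : Ideal (𝓞 K) // c ∣ I}, if 𝔞 ∣ c.1 then Ideal.absNorm c.1 ^ j else 0

variable (p) in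
/-- The sum over the divisors prime to `p`. -/
def sigmaAway (j : ℕ) (I : Ideal (𝓞 K)) : ℕ :=
  ∑' c : {c : Ideal (𝓞 K) // c ∣ I}, if PrimeToP p c.1 then Ideal.absNorm c.1 ^ j else 0

/-- The complementary multiples. -/
theorem tsum_cofactor_mult (j : ℕ) {𝔞 : Ideal (𝓞 K)} (hI : I ≠ 0) :
    ∑' b : {b : (Ideal (𝓞 K))⁰ // (b : Ideal (𝓞 K)) ∣ I},
      (if 𝔞 ∣ (b.1 : Ideal (𝓞 K)) then ((Ideal.absNorm I : ℚ) * Ideal.absNorm 𝔞 /
        Ideal.absNorm (b.1 : Ideal (𝓞 K))) ^ j else 0) = multSigma 𝔞 j I := by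
  obtain ⟨E, hE⟩ : ∃ E : {b : (Ideal (𝓞 K))⁰ // (b : Ideal (𝓞 K)) ∣ I} ≃
      {b : Ideal (𝓞 K) // b ∣ I}, ∀ b, (E b).1 = (b.1 : Ideal (𝓞 K)) :=
    ⟨{ toFun := fun b => ⟨b.1, b.2⟩
       invFun := fun b => ⟨⟨b.1, mem_nonZeroDivisors_iff_ne_zero.2
         (ne_zero_of_dvd_ne_zero hI b.2)⟩, b.2⟩
       left_inv := fun b => rfl
       right_inv := fun b => rfl }, fun b => rfl⟩
  simp only [← hE]
  rw [E.tsum_eq fun b : {b : Ideal (𝓞 K) // b ∣ I} =>
    if 𝔞 ∣ b.1 then ((Ideal.absNorm I : ℚ) * Ideal.absNorm 𝔞 / Ideal.absNorm b.1) ^ j else 0]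
  haveI := finite_dvd hI
  haveI := Fintype.ofFinite {b : Ideal (𝓞 K) // b ∣ I}
  rw [multSigma, tsum_fintype, tsum_fintype]
  push_cast
  rw [← Finset.sum_filter, ← Finset.sum_filter]
  choose cof hcof using fun b : {b : Ideal (𝓞 K) // b ∣ I} => b.2
  have hmem : ∀ b : {b : Ideal (𝓞 K) // b ∣ I}, 𝔞 ∣ b.1 → 𝔞 * cof b ∣ I := fun b ⟨e, he⟩ =>
    ⟨e, by rw [mul_right_comm, ← he, ← hcof b]⟩
  obtain ⟨i, hi⟩ : ∃ i : {b : Ideal (𝓞 K) // b ∣ I} → {b : Ideal (𝓞 K) // b ∣ I},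
      ∀ b, 𝔞 ∣ b.1 → (i b).1 = 𝔞 * cof b :=
    ⟨fun b => if h : 𝔞 ∣ b.1 then ⟨_, hmem b h⟩ else b, fun b h => by simp only [dif_pos h]⟩
  have hinv : ∀ b : {b : Ideal (𝓞 K) // b ∣ I}, 𝔞 ∣ b.1 → i (i b) = b := fun b hb => by
    obtain ⟨e, he⟩ := hb
    have h1 := hi b ⟨e, he⟩
    have h2 := hcof (i b)
    have h3 := hcof b
    rw [h1] at h2
    have hne : 𝔞 * cof b ≠ 0 := ne_zero_of_dvd_ne_zero hI (hmem b ⟨e, he⟩)
    have h4 : cof (i b) = e := mul_left_cancel₀ hne (by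
      rw [← h2, h3, he]
      ring)
    refine Subtype.ext ?_
    rw [hi (i b) (h1 ▸ dvd_mul_right _ _), h4, ← he]
  have hfil : ∀ b ∈ (Finset.univ.filter fun b : {b : Ideal (𝓞 K) // b ∣ I} => 𝔞 ∣ b.1),
      i b ∈ (Finset.univ.filter fun b : {b : Ideal (𝓞 K) // b ∣ I} => 𝔞 ∣ b.1) := fun b hb => by
    rw [Finset.mem_filter] at hb ⊢
    exact ⟨Finset.mem_univ _, hi b hb.2 ▸ dvd_mul_right _ _⟩
  refine Finset.sum_bij' (fun b _ => i b) (fun b _ => i b) hfil hfil
    (fun b hb => hinv b (Finset.mem_filter.1 hb).2) (fun b hb => hinv b (Finset.mem_filter.1 hb).2)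
    fun b hb => ?_
  rw [hi b (Finset.mem_filter.1 hb).2]
  congr 1
  have hb0 : (Ideal.absNorm b.1 : ℚ) ≠ 0 := Nat.cast_ne_zero.2 (by
    rw [Ne, Ideal.absNorm_eq_zero_iff]
    exact ne_zero_of_dvd_ne_zero hI b.2)
  rw [div_eq_iff hb0, map_mul, congrArg Ideal.absNorm (hcof b), map_mul]
  push_cast
  ring

/-- **Inclusion and exclusion.** -/
theorem sum_powerset_multSigma (j : ℕ) (hI : I ≠ 0) :
    ∑ S ∈ (primesAt K p).powerset, (-1 : ℚ) ^ S.card * (multSigma (S.prod id) j I : ℚ) =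
      sigmaAway p j I := by
  haveI := finite_dvd hI
  haveI := Fintype.ofFinite {b : Ideal (𝓞 K) // b ∣ I}
  simp only [multSigma, sigmaAway, tsum_fintype]
  push_cast
  simp only [Finset.mul_sum]
  rw [Finset.sum_comm]
  refine Finset.sum_congr rfl fun c _ => ?_
  have key : ∑ S ∈ (primesAt K p).powerset,
      (if S.prod id ∣ c.1 then (-1 : ℚ) ^ S.card else 0) =
        if PrimeToP p c.1 then 1 else 0 := by
    rw [Finset.sum_congr rfl fun S hS => show (if S.prod id ∣ c.1 then (-1 : ℚ) ^ S.card else 0) =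
        ∏ P ∈ S, -(if P ∣ c.1 then (1 : ℚ) else 0) by
      rw [Finset.prod_neg, Finset.prod_ite_zero, Finset.prod_const_one]
      simp only [prod_primesAt_dvd (Finset.mem_powerset.1 hS)]
      split_ifs <;> simp]
    rw [← Finset.prod_one_add]
    by_cases h : PrimeToP p c.1
    · rw [if_pos h]
      exact Finset.prod_eq_one fun P hP => by simp [h P hP]
    · rw [if_neg h]
      rw [PrimeToP] at h
      push Not at h
      obtain ⟨P, hP, hd⟩ := h
      exact Finset.prod_eq_zero hP (by simp [hd])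
  calc _ = (∑ S ∈ (primesAt K p).powerset,
        (if S.prod id ∣ c.1 then (-1 : ℚ) ^ S.card else 0)) * (Ideal.absNorm c.1 : ℚ) ^ j := by
        rw [Finset.sum_mul]
        exact Finset.sum_congr rfl fun S _ => by split_ifs <;> simp
    _ = _ := by rw [key]; split_ifs <;> simp

/-- **The congruence of the divisor sums.** -/
theorem idealSigma_congr {a j' j t : ℕ} (hj : j' = j + (p - 1) * (p ^ a * t)) (hj' : a + 1 ≤ j')
    (hI : I ≠ 0) : (p : ℤ) ^ (a + 1) ∣ (idealSigma j' I : ℤ) - (sigmaAway p j I : ℤ) := by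
  haveI := finite_dvd hI
  haveI := Fintype.ofFinite {b : Ideal (𝓞 K) // b ∣ I}
  have hp : p.Prime := Fact.out
  have h : ((idealSigma j' I : ℕ) : ZMod (p ^ (a + 1))) = (sigmaAway p j I : ℕ) := by
    simp only [idealSigma, sigmaAway, tsum_fintype, Nat.cast_sum]
    refine Finset.sum_congr rfl fun c _ => ?_
    by_cases hc : PrimeToP p c.1
    · rw [if_pos hc]
      have hco : (Ideal.absNorm c.1).Coprime (p ^ (a + 1)) :=
        ((hp.coprime_iff_not_dvd.2 (primeToP_iff.1 hc)).symm).pow_right _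
      obtain ⟨v, hv⟩ : ∃ v : (ZMod (p ^ (a + 1)))ˣ,
          (v : ZMod (p ^ (a + 1))) = (Ideal.absNorm c.1 : ZMod _) :=
        ⟨ZMod.unitOfCoprime _ hco, rfl⟩
      have he : v ^ (p ^ a * (p - 1)) = 1 := by
        have h := ZMod.pow_totient v
        rwa [Nat.totient_prime_pow_succ hp a] at h
      rw [Nat.cast_pow, Nat.cast_pow, ← hv, ← Units.val_pow_eq_pow_val,
        ← Units.val_pow_eq_pow_val, hj,
        show (p - 1) * (p ^ a * t) = p ^ a * (p - 1) * t by ring, pow_add v, pow_mul v, he,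
        one_pow, mul_one]
    · rw [if_neg hc, Nat.cast_zero, ZMod.natCast_eq_zero_iff]
      rw [primeToP_iff, not_not] at hc
      exact (pow_dvd_pow p hj').trans (pow_dvd_pow_of_dvd hc _)
  rw [← Nat.cast_pow, ← ZMod.intCast_zmod_eq_zero_iff_dvd]
  push_cast
  rw [h, sub_self]

end FA.PadicEulerFactor

end
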