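import Fermat.Agent.PadicEulerFactor.Series
import Fermat.Agent.PadicEulerFactor.Euler
import Fermat.Agent.SerreDenominators.SiegelForm

/-!
# The form of level `p` with the Euler factors removed

The alternating combination over the sets `S` of primes above `p` of the series of the pairs
`(𝔞 J, J)`, `𝔞` the product of `S`, has constant term `∏ (1 - N P ^ (k-1)) 2 ^ (-n) ζ (1 - k)` and
the divisor sums prime to `p` as coefficients; its substitution has bounded denominators.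
-/

set_option autoImplicit false
set_option linter.unusedSectionVars false
set_option linter.style.haveILetI false

noncomputable section

open NumberField InfinitePlace Module
open UpperHalfPlane hiding I
open Complex (I)
open scoped Real nonZeroDivisors Classical MatrixGroups ModularForm

namespace FA.PadicEulerFactor

open FA.HeckeFE FA.SiegelKlingen FA.SiegelConstant FA.Eis

variable {K : Type*} [Field K] [NumberField K] [IsTotallyReal K]

/-- An ideal as a unit of the fractional ideals, `1` for the zero ideal. -/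
def idealUnit (𝔞 : Ideal (𝓞 K)) : (FractionalIdeal (𝓞 K)⁰ K)ˣ :=
  if h : 𝔞 = 0 then 1 else
    Units.mk0 (𝔞 : FractionalIdeal (𝓞 K)⁰ K) (FractionalIdeal.coeIdeal_ne_zero.2 h)

theorem coe_idealUnit {𝔞 : Ideal (𝓞 K)} (h : 𝔞 ≠ 0) :
    (idealUnit 𝔞 : FractionalIdeal (𝓞 K)⁰ K) = 𝔞 := by
  rw [idealUnit, dif_neg h]
  rfl

theorem absNorm_idealUnit {𝔞 : Ideal (𝓞 K)} (h : 𝔞 ≠ 0) :
    FractionalIdeal.absNorm (idealUnit 𝔞 : FractionalIdeal (𝓞 K)⁰ K) =
      (Ideal.absNorm 𝔞 : ℚ) := by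
  rw [coe_idealUnit h, FractionalIdeal.coeIdeal_absNorm]

theorem nested_idealUnit {p : ℕ} [NeZero p] {𝔞 : Ideal (𝓞 K)}
    (hd : 𝔞 ∣ Ideal.span {(p : 𝓞 K)}) (J : (FractionalIdeal (𝓞 K)⁰ K)ˣ) :
    Nested p (idealUnit 𝔞 * J) J := by
  have h0 : 𝔞 ≠ 0 := ne_zero_of_dvd_ne_zero (by simp [NeZero.ne p]) hd
  refine ⟨fun x hx => ?_, fun x hx => ?_⟩
  · rw [SetLike.mem_coe, Units.val_mul, coe_idealUnit h0] at hx
    exact (mul_le_of_le_one_left zero_le FractionalIdeal.coeIdeal_le_one :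
      (𝔞 : FractionalIdeal (𝓞 K)⁰ K) * J ≤ J) hx
  · rw [SetLike.mem_coe, Units.val_mul, coe_idealUnit h0]
    refine FractionalIdeal.mul_mem_mul ((FractionalIdeal.mem_coeIdeal _).2
      ⟨(p : 𝓞 K), Ideal.dvd_span_singleton.1 hd, map_natCast _ p⟩) hx

/-- A representative lies in `𝔞 J` when `𝔞` divides its cofactor. -/
theorem mem_repOf_iff {𝔞 : Ideal (𝓞 K)} (h0 : 𝔞 ≠ 0) (q : (Ideal (𝓞 K))⁰ × Units.torsion K) :
    (repOf q).2.1 ∈
        ((idealUnit 𝔞 * repIdeal K (repOf q).1 : (FractionalIdeal (𝓞 K)⁰ K)ˣ) : Set K) ↔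
      𝔞 ∣ (q.1 : Ideal (𝓞 K)) := by
  obtain ⟨x, hx, hs⟩ := repOf_spec q
  have hc : FractionalIdeal.spanSingleton (𝓞 K)⁰ (repOf q).2.1 =
      (repIdeal K (repOf q).1 : FractionalIdeal (𝓞 K)⁰ K) * ((q.1 : Ideal (𝓞 K))) := by
    rw [← hx, ← FractionalIdeal.coeIdeal_span_singleton, hs, FractionalIdeal.coeIdeal_mul]
    rfl
  rw [SetLike.mem_coe, ← FractionalIdeal.spanSingleton_le_iff_mem, hc, Units.val_mul,
    coe_idealUnit h0, mul_comm _ (repIdeal K (repOf q).1 : FractionalIdeal (𝓞 K)⁰ K),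
    mul_le_mul_iff_of_pos_left (pos_iff_ne_zero.2 (repIdeal K (repOf q).1).ne_zero),
    FractionalIdeal.coeIdeal_le_coeIdeal, Ideal.dvd_iff_le]

/-- The pairs of level `m` with first entry in `A`, as an indicator. -/
theorem subTrace_eq (A B : (FractionalIdeal (𝓞 K)⁰ K)ˣ) (k m : ℕ)
    [Fintype {y : PosPairs B // level B y = m}] :
    subTrace A B k m = ∑ y : {y : PosPairs B // level B y = m},
      if y.1.1.1.1 ∈ (A : Set K) then |Algebra.norm ℚ (y.1.1.2 : K)| ^ (k - 1) else 0 := by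
  obtain ⟨E, hE⟩ : ∃ E : {y : SubPairs A B // level B y.1 = m} ≃
      {y : {y : PosPairs B // level B y = m} // y.1.1.1.1 ∈ (A : Set K)},
      ∀ y, (E y).1.1 = y.1.1 :=
    ⟨{ toFun := fun y => ⟨⟨y.1.1, y.2⟩, y.1.2⟩
       invFun := fun y => ⟨⟨y.1.1, y.2⟩, y.1.2⟩
       left_inv := fun y => rfl
       right_inv := fun y => rfl }, fun y => rfl⟩
  rw [subTrace]
  simp only [← hE]
  rw [E.tsum_eq fun y : {y : {y : PosPairs B // level B y = m} // y.1.1.1.1 ∈ (A : Set K)} =>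
    |Algebra.norm ℚ (y.1.1.1.2 : K)| ^ (k - 1), tsum_fintype, ← Finset.sum_filter]
  exact (Finset.sum_subtype _ (fun y => by simp)
    fun y : {y : PosPairs B // level B y = m} => |Algebra.norm ℚ (y.1.1.2 : K)| ^ (k - 1)).symm

/-- **The coefficients summed over the classes.** -/
theorem sum_subTrace {k : ℕ} (hk : Even k) (hk2 : 2 ≤ k)
    (hw : 4 ≤ k * finrank ℚ K) (m : ℕ) {𝔞 : Ideal (𝓞 K)} (h0 : 𝔞 ≠ 0) :
    ∑ C : ClassGroup (𝓞 K), (Ideal.absNorm 𝔞 : ℚ) ^ (k - 1) *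
        FractionalIdeal.absNorm (repIdeal K C : FractionalIdeal (𝓞 K)⁰ K) ^ (k - 1) *
        subTrace (idealUnit 𝔞 * repIdeal K C) (repIdeal K C) k m =
      (Units.torsionOrder K : ℚ) * (∑' ξ : TracePt K m, (multSigma 𝔞 (k - 1) (pointIdeal ξ) : ℚ)) /
        ((discr K).natAbs : ℚ) ^ (k - 1) := by
  obtain ⟨e, he⟩ := exists_equiv_rep (K := K) m
  have hfin := fun C : ClassGroup (𝓞 K) => finite_level (repIdeal K C) hk hk2
    (series_ready hk hk2 hw _).1 m
  haveI : ∀ C : ClassGroup (𝓞 K), Finite {y : PosPairs (repIdeal K C) //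
      level (repIdeal K C) y = m} := fun C => (hfin C).to_subtype
  haveI : Finite (DivPt K m) := Finite.of_equiv _ e.symm
  haveI : Finite (TracePt K m) := (sum_traceSum k m hfin).1
  haveI := fun C : ClassGroup (𝓞 K) =>
    Fintype.ofFinite {y : PosPairs (repIdeal K C) // level (repIdeal K C) y = m}
  haveI := Fintype.ofFinite (DivPt K m)
  obtain ⟨g, hg⟩ : ∃ g : DivPt K m → ℚ, ∀ q, g q = if 𝔞 ∣ (q.1.2.1 : Ideal (𝓞 K)) then
      ((Ideal.absNorm (pointIdeal q.1.1) : ℚ) * Ideal.absNorm 𝔞 /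
        Ideal.absNorm (q.1.2.1 : Ideal (𝓞 K))) ^ (k - 1) / ((discr K).natAbs : ℚ) ^ (k - 1)
      else 0 := ⟨_, fun _ => rfl⟩
  have h1 : ∑ C : ClassGroup (𝓞 K), (Ideal.absNorm 𝔞 : ℚ) ^ (k - 1) *
      FractionalIdeal.absNorm (repIdeal K C : FractionalIdeal (𝓞 K)⁰ K) ^ (k - 1) *
        subTrace (idealUnit 𝔞 * repIdeal K C) (repIdeal K C) k m = ∑' q, g q := by
    rw [← e.symm.tsum_eq g, tsum_fintype, Fintype.sum_sigma]
    refine Finset.sum_congr rfl fun C _ => ?_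
    rw [subTrace_eq, Finset.mul_sum]
    refine Finset.sum_congr rfl fun y _ => ?_
    obtain ⟨q, hq⟩ : ∃ q, q = e.symm ⟨C, y⟩ := ⟨_, rfl⟩
    obtain ⟨hr, hn⟩ := he q
    rw [← hq]
    rw [hq, Equiv.apply_symm_apply, ← hq] at hr hn
    have hiff : y.1.1.1.1 ∈
        ((idealUnit 𝔞 * repIdeal K C : (FractionalIdeal (𝓞 K)⁰ K)ˣ) : Set K) ↔
          𝔞 ∣ (q.1.2.1 : Ideal (𝓞 K)) := by
      have h := mem_repOf_iff h0 q.1.2
      rwa [hr] at h
    rw [hg]
    simp only [hiff, mul_ite, mul_zero]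
    refine if_congr Iff.rfl ?_ rfl
    rw [← div_pow, ← mul_pow, ← mul_pow]
    congr 1
    rw [normR, ← Rat.cast_mul] at hn
    rw [mul_assoc, Rat.cast_injective hn]
    ring
  let S : TracePt K m → Type _ := fun ξ =>
    {b : (Ideal (𝓞 K))⁰ // (b : Ideal (𝓞 K)) ∣ pointIdeal ξ} × Units.torsion K
  let E : (Σ ξ : TracePt K m, S ξ) ≃ DivPt K m :=
    { toFun := fun z => ⟨(z.1, (z.2.1.1, z.2.2)), z.2.1.2⟩
      invFun := fun q => ⟨q.1.1, (⟨q.1.2.1, q.2⟩, q.1.2.2)⟩
      left_inv := fun z => rfl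
      right_inv := fun q => rfl }
  haveI : Finite (Σ ξ : TracePt K m, S ξ) := Finite.of_equiv _ E.symm
  haveI := Fintype.ofFinite (TracePt K m)
  haveI : ∀ ξ : TracePt K m, Finite {b : (Ideal (𝓞 K))⁰ // (b : Ideal (𝓞 K)) ∣ pointIdeal ξ} :=
    fun ξ => Finite.of_injective (fun b => (⟨ξ, (b, 1)⟩ : Σ ξ : TracePt K m, S ξ))
      fun b b' h => congrArg Prod.fst (eq_of_heq (Sigma.mk.inj_iff.1 h).2)
  haveI := fun ξ : TracePt K m =>
    Fintype.ofFinite {b : (Ideal (𝓞 K))⁰ // (b : Ideal (𝓞 K)) ∣ pointIdeal ξ}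
  haveI := Fintype.ofFinite (Units.torsion K)
  letI : ∀ ξ : TracePt K m, Fintype (S ξ) := fun ξ => inferInstanceAs (Fintype
    ({b : (Ideal (𝓞 K))⁰ // (b : Ideal (𝓞 K)) ∣ pointIdeal ξ} × Units.torsion K))
  rw [h1, ← E.tsum_eq g, tsum_fintype, Fintype.sum_sigma, tsum_fintype, Finset.mul_sum,
    Finset.sum_div]
  refine Finset.sum_congr rfl fun ξ _ => ?_
  rw [← tsum_cofactor_mult (k - 1) (pointIdeal_ne_zero ξ), tsum_fintype, Finset.mul_sum,
    Finset.sum_div]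
  simp only [S, E, Equiv.coe_fn_mk, hg]
  rw [Fintype.sum_prod_type]
  refine Finset.sum_congr rfl fun b _ => ?_
  simp only [Finset.sum_const, Finset.card_univ, nsmul_eq_mul, Units.torsionOrder,
    Nat.card_eq_fintype_card]
  split_ifs <;> ring

variable (K) in
/-- The coefficient of the class `C`. -/
def classWt (k : ℕ) (C : ClassGroup (𝓞 K)) : ℂ :=
  ((((discr K).natAbs : ℚ) ^ (k - 1) *
    FractionalIdeal.absNorm (repIdeal K C : FractionalIdeal (𝓞 K)⁰ K) ^ (k - 1) /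
      (Units.torsionOrder K : ℚ) : ℚ) : ℂ) / factor (repIdeal K C) k

theorem classWt_mul_factor (k : ℕ) (C : ClassGroup (𝓞 K)) :
    classWt K k C * factor (repIdeal K C) k = ((((discr K).natAbs : ℚ) ^ (k - 1) *
      FractionalIdeal.absNorm (repIdeal K C : FractionalIdeal (𝓞 K)⁰ K) ^ (k - 1) /
        (Units.torsionOrder K : ℚ) : ℚ) : ℂ) :=
  div_mul_cancel₀ _ (factor_ne_zero _ _)

/-- **The constant term.** -/
theorem sum_classWt_constSum {k : ℕ} (hk : Even k) (hk2 : 2 ≤ k) (hw : 4 ≤ k * finrank ℚ K) :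
    ∑ C : ClassGroup (𝓞 K), classWt K k C * (constSum (repIdeal K C) k : ℂ) =
      (siegelTotal K k : ℂ) := by
  obtain ⟨f, hf⟩ : ∃ f : ModularForm 𝒮ℒ ((k * finrank ℚ K : ℕ) : ℤ),
      qExpansion 1 ⇑f = ∑ C : ClassGroup (𝓞 K), classWt K k C • qExpansion 1
        ⇑(eisForm (repIdeal K C) hk (by omega) (series_ready hk (by omega) hw _).1
          (series_ready hk (by omega) hw _).2) := by
    refine ⟨∑ C : ClassGroup (𝓞 K), classWt K k C • eisForm (repIdeal K C) hk (by omega)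
      (series_ready hk (by omega) hw _).1 (series_ready hk (by omega) hw _).2,
      (show HasQ 1 _ _ from ?_).qExpansion_eq one_pos⟩
    rw [FunLike.coe_sum]
    exact HasQ.sum _ fun C _ => by
      rw [FunLike.coe_smul]
      exact (FA.Tau.hasQ_form _).smul _
  have h := constant_term (hk.mul_right _) hw f
  simp only [hf, map_sum, PowerSeries.coeff_smul, coeff_eisForm, if_pos, smul_eq_mul] at h
  rw [h, siegelTotal, Rat.cast_sum]
  refine Finset.sum_congr rfl fun l hl => ?_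
  rw [Rat.cast_mul]
  congr 1
  simp only [if_neg (show l ≠ 0 by rw [Finset.mem_Icc] at hl; omega), ← mul_assoc,
    classWt_mul_factor, ← Rat.cast_mul, ← Rat.cast_sum]
  congr 1
  have hd : ((discr K).natAbs : ℚ) ^ (k - 1) ≠ 0 :=
    pow_ne_zero _ (Nat.cast_ne_zero.2 (Int.natAbs_ne_zero.2 (discr_ne_zero K)))
  have ht : (Units.torsionOrder K : ℚ) ≠ 0 := Nat.cast_ne_zero.2 (NeZero.ne _)
  rw [← mul_div_cancel_left₀ (pointSum K (k - 1) l : ℚ) ht]
  rw [← mul_div_cancel₀ (Units.torsionOrder K * (pointSum K (k - 1) l : ℚ)) hd,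
    ← (sum_traceSum k l fun _ => finite_level _ hk (by omega)
      (series_ready hk (by omega) hw _).1 l).2, Finset.mul_sum, Finset.sum_div]
  exact Finset.sum_congr rfl fun C _ => by ring

local notation "toC" => PowerSeries.map (Int.castRingHom ℂ)

/-- An expansion with bounded denominators. -/
def IntBdd (f : ℍ → ℂ) : Prop :=
  ∃ D : ℤ, D ≠ 0 ∧ ∃ T : PowerSeries ℤ, HasQ 1 ((D : ℂ) • f) (toC T)

theorem IntBdd.zero : IntBdd 0 :=
  ⟨1, one_ne_zero, 0, by rw [smul_zero, map_zero]; exact HasQ.zero 1⟩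

theorem IntBdd.add {f g : ℍ → ℂ} (hf : IntBdd f) (hg : IntBdd g) : IntBdd (f + g) := by
  obtain ⟨D, hD, T, hT⟩ := hf
  obtain ⟨E, hE, U, hU⟩ := hg
  refine ⟨D * E, mul_ne_zero hD hE, PowerSeries.C E * T + PowerSeries.C D * U, ?_⟩
  have h := (hT.smul (E : ℂ)).add (hU.smul (D : ℂ))
  convert h using 1
  · rw [Int.cast_mul, smul_add, smul_smul, smul_smul, mul_comm (E : ℂ)]
  · simp [PowerSeries.smul_eq_C_mul]

theorem IntBdd.sum {ι : Type*} (s : Finset ι) {F : ι → ℍ → ℂ} (h : ∀ i ∈ s, IntBdd (F i)) :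
    IntBdd (∑ i ∈ s, F i) := by
  induction s using Finset.induction_on with
  | empty => simpa using IntBdd.zero
  | insert a s ha ih =>
    rw [Finset.sum_insert ha]
    exact (h a (Finset.mem_insert_self a s)).add
      (ih fun i hi => h i (Finset.mem_insert_of_mem hi))

theorem IntBdd.smul {f : ℍ → ℂ} (hf : IntBdd f) (q : ℚ) : IntBdd ((q : ℂ) • f) := by
  obtain ⟨D, hD, T, hT⟩ := hf
  refine ⟨D * q.den, mul_ne_zero hD (by exact_mod_cast q.den_ne_zero),
    PowerSeries.C q.num * T, ?_⟩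
  have h := hT.smul (q.num : ℂ)
  convert h using 1
  · rw [smul_smul, smul_smul]
    congr 1
    rw [← Rat.cast_intCast q.num, ← Rat.den_mul_eq_num q]
    push_cast
    ring
  · simp [PowerSeries.smul_eq_C_mul]

theorem exists_norm_den (J : (FractionalIdeal (𝓞 K)⁰ K)ˣ) : ∃ d : ℕ, d ≠ 0 ∧
    ∀ ν : K, ν ∈ (J : Set K) → ∃ z : ℕ, (d : ℚ) * |Algebra.norm ℚ ν| = z := by
  obtain ⟨a, ha⟩ : ∃ a : 𝓞 K, a = ((J : FractionalIdeal (𝓞 K)⁰ K).den : 𝓞 K) := ⟨_, rfl⟩
  refine ⟨(Algebra.norm ℤ a).natAbs, Int.natAbs_ne_zero.2 (Algebra.norm_ne_zero_iff.2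
    (ha ▸ nonZeroDivisors.coe_ne_zero _)), fun ν hν => ?_⟩
  have h : (a : K) * ν ∈ ((J : FractionalIdeal (𝓞 K)⁰ K).num : FractionalIdeal (𝓞 K)⁰ K) := by
    rw [← FractionalIdeal.den_mul_self_eq_num', ha]
    exact FractionalIdeal.mul_mem_mul (FractionalIdeal.mem_spanSingleton_self _ _) hν
  obtain ⟨x, -, hx⟩ := (FractionalIdeal.mem_coeIdeal _).1 h
  refine ⟨(Algebra.norm ℤ x).natAbs, ?_⟩
  simp only [Nat.cast_natAbs, Int.cast_abs, Algebra.coe_norm_int]
  rw [← abs_mul, ← map_mul]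
  exact congrArg (fun y => |Algebra.norm ℚ y|) hx.symm

/-- The series of the second cusp has bounded denominators. -/
theorem intBdd_subFun (A B : (FractionalIdeal (𝓞 K)⁰ K)ˣ) {k : ℕ} (hk : Even k)
    (hk2 : 2 ≤ k) (hw : 4 ≤ k * finrank ℚ K) :
    IntBdd ((factor B k)⁻¹ • subFun A B k) := by
  obtain ⟨r, hr⟩ := constSum_mem B hk hk2 (series_ready hk hk2 hw B).1
    (series_ready hk hk2 hw B).2
  obtain ⟨d, hd, hd'⟩ := exists_norm_den (dualIdeal B)
  choose z hz using hd'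
  have hint : ∀ m, ∃ n : ℤ, (d : ℚ) ^ (k - 1) * subTrace A B k m = n := fun m => by
    haveI := finite_subLevel A B hk hk2 hw m
    haveI := Fintype.ofFinite {y : SubPairs A B // level B y.1 = m}
    refine ⟨∑ y : {y : SubPairs A B // level B y.1 = m}, (z _ y.1.1.1.2.2 : ℤ) ^ (k - 1), ?_⟩
    rw [subTrace, tsum_fintype, Finset.mul_sum]
    push_cast
    exact Finset.sum_congr rfl fun y _ => by rw [← mul_pow, hz]
  choose n hn using hint
  refine ⟨(d : ℤ) ^ (k - 1) * r.den, mul_ne_zero (pow_ne_zero _ (by exact_mod_cast hd))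
    (by exact_mod_cast r.den_ne_zero),
    PowerSeries.mk fun m => if m = 0 then (d : ℤ) ^ (k - 1) * r.num else (r.den : ℤ) * n m, ?_⟩
  have hQ := ((hasQ_subFun (A := A) (B := B) hk hk2 hw).smul (factor B k)⁻¹).smul
    ((((d : ℤ) ^ (k - 1) * r.den : ℤ)) : ℂ)
  convert hQ using 1
  refine PowerSeries.ext fun m => ?_
  have hf := factor_ne_zero B k
  rw [PowerSeries.coeff_map, PowerSeries.coeff_mk, PowerSeries.coeff_smul, PowerSeries.coeff_smul,
    PowerSeries.coeff_mk, eq_intCast, smul_eq_mul, smul_eq_mul]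
  split_ifs with hm
  · rw [hr]
    push_cast
    rw [← Rat.cast_intCast r.num, ← Rat.den_mul_eq_num r]
    push_cast
    field_simp
  · have := congrArg (Rat.cast : ℚ → ℂ) (hn m)
    push_cast at this ⊢
    rw [← this]
    field_simp

theorem factor_idealUnit_mul {𝔞 : Ideal (𝓞 K)} (h0 : 𝔞 ≠ 0)
    (J : (FractionalIdeal (𝓞 K)⁰ K)ˣ) (k : ℕ) :
    (factor J k)⁻¹ =
      (((Ideal.absNorm 𝔞 : ℚ)⁻¹ : ℚ) : ℂ) * (factor (idealUnit 𝔞 * J) k)⁻¹ := by
  have hN : (Ideal.absNorm 𝔞 : ℂ) ≠ 0 :=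
    Nat.cast_ne_zero.2 (by rwa [Ne, Ideal.absNorm_eq_zero_iff])
  rw [factor, factor, normR, normR, Units.val_mul, map_mul, absNorm_idealUnit h0]
  push_cast
  simp only [inv_div, mul_div_assoc']
  congr 1
  field_simp

variable (K) in
/-- The sum over the points of trace `m` of the divisor sums prime to `p`. -/
def eulerSum (p j m : ℕ) : ℕ := ∑' ξ : TracePt K m, sigmaAway p j (pointIdeal ξ)

variable (K) in
/-- `∏ (1 - N P ^ (k-1)) 2 ^ (-n) ζ (1 - k)`, the primes above `p`. -/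
def eulerVal (p k : ℕ) : ℚ :=
  (∏ P ∈ primesAt K p, (1 - (Ideal.absNorm P : ℚ) ^ (k - 1))) * siegelTotal K k

theorem W_sum (p : ℕ) (w : ℤ) {ι : Type*} (s : Finset ι) (F : ι → ℍ → ℂ) :
    Eis.W p w (∑ i ∈ s, F i) = ∑ i ∈ s, Eis.W p w (F i) := by
  induction s using Finset.induction_on with
  | empty =>
    rw [Finset.sum_empty, Finset.sum_empty, ← zero_smul ℂ (0 : ℍ → ℂ), W_smul, zero_smul,
      zero_smul]
  | insert a s ha ih => rw [Finset.sum_insert ha, Finset.sum_insert ha, W_add, ih]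

/-- **The form.** -/
theorem exists_euler_form {p : ℕ} [Fact p.Prime] {k : ℕ} (hk : Even k) (hk2 : 2 ≤ k)
    (hw : 4 ≤ k * finrank ℚ K) :
    ∃ f : ℍ → ℂ, IsLv p (wt K k) f ∧ HasQ 1 f (PowerSeries.mk fun m =>
      if m = 0 then (eulerVal K p k : ℂ) else (eulerSum K p (k - 1) m : ℂ)) ∧
      IntBdd (Eis.W p (wt K k) f) := by
  obtain ⟨c, hc⟩ : ∃ c : Finset (Ideal (𝓞 K)) → ℚ, ∀ S, c S =
      (-1 : ℚ) ^ S.card * (Ideal.absNorm (S.prod id) : ℚ) ^ (k - 1) := ⟨_, fun _ => rfl⟩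
  obtain ⟨F, hF⟩ : ∃ F : Finset (Ideal (𝓞 K)) → ClassGroup (𝓞 K) → ℍ → ℂ, ∀ S C, F S C =
      ((c S : ℂ) * classWt K k C) •
        subFun (idealUnit (S.prod id) * repIdeal K C) (repIdeal K C) k :=
    ⟨_, fun _ _ => rfl⟩
  have hN : ∀ S ∈ (primesAt K p).powerset, ∀ C : ClassGroup (𝓞 K),
      Nested p (idealUnit (S.prod id) * repIdeal K C) (repIdeal K C) := fun S hS C =>
    nested_idealUnit (prod_primesAt_dvd_p (Finset.mem_powerset.1 hS)) _
  refine ⟨∑ S ∈ (primesAt K p).powerset, ∑ C : ClassGroup (𝓞 K), F S C,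
    IsLv.sum _ fun S hS => IsLv.sum _ fun C _ => hF S C ▸
      (isLv_subFun hk hk2 hw (hN S hS C)).smul _, ?_, ?_⟩
  · have hQ : HasQ 1 (∑ S ∈ (primesAt K p).powerset, ∑ C : ClassGroup (𝓞 K), F S C)
        (∑ S ∈ (primesAt K p).powerset, ∑ C : ClassGroup (𝓞 K), ((c S : ℂ) * classWt K k C) •
          PowerSeries.mk fun m => if m = 0 then (constSum (repIdeal K C) k : ℂ)
            else factor (repIdeal K C) k *
              (subTrace (idealUnit (S.prod id) * repIdeal K C) (repIdeal K C) k m : ℂ)) :=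
      HasQ.sum _ fun S _ => HasQ.sum _ fun C _ => hF S C ▸ (hasQ_subFun hk hk2 hw).smul _
    convert hQ using 1
    refine PowerSeries.ext fun m => ?_
    simp only [map_sum, PowerSeries.coeff_smul, PowerSeries.coeff_mk, smul_eq_mul]
    split_ifs with hm
    · simp only [mul_assoc, ← Finset.mul_sum, sum_classWt_constSum hk hk2 hw]
      rw [← Finset.sum_mul, ← Rat.cast_sum, eulerVal, Rat.cast_mul]
      congr 2
      simp only [hc, map_prod, Nat.cast_prod, ← Finset.prod_pow, id, sub_eq_add_neg]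
      rw [Finset.prod_one_add]
      exact Finset.sum_congr rfl fun S _ => by rw [Finset.prod_neg]
    · have e : ∀ S, ∀ C : ClassGroup (𝓞 K), (c S : ℂ) * classWt K k C *
          (factor (repIdeal K C) k *
            (subTrace (idealUnit (S.prod id) * repIdeal K C) (repIdeal K C) k m : ℂ)) =
          (((-1 : ℚ) ^ S.card * ((discr K).natAbs : ℚ) ^ (k - 1) / (Units.torsionOrder K : ℚ) *
            ((Ideal.absNorm (S.prod id) : ℚ) ^ (k - 1) *
            FractionalIdeal.absNorm (repIdeal K C : FractionalIdeal (𝓞 K)⁰ K) ^ (k - 1) *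
            subTrace (idealUnit (S.prod id) * repIdeal K C) (repIdeal K C) k m) : ℚ) : ℂ) :=
        fun S C => by
        rw [mul_assoc, ← mul_assoc (classWt K k C), classWt_mul_factor, hc]
        push_cast
        ring
      simp only [e, ← Rat.cast_sum, ← Finset.mul_sum]
      rw [← Rat.cast_natCast]
      congr 1
      haveI : Finite (TracePt K m) :=
        finite_tracePt hk hk2 hw m
      haveI := Fintype.ofFinite (TracePt K m)
      rw [eulerSum, tsum_fintype, Nat.cast_sum]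
      rw [Finset.sum_congr rfl fun ξ _ => (sum_powerset_multSigma (p := p) (k - 1)
        (pointIdeal_ne_zero ξ)).symm, Finset.sum_comm]
      refine Finset.sum_congr rfl fun S hS => ?_
      rw [sum_subTrace hk hk2 hw m (prod_primesAt_ne_zero (Finset.mem_powerset.1 hS)), tsum_fintype,
        ← Finset.mul_sum]
      have hd : ((discr K).natAbs : ℚ) ≠ 0 :=
        Nat.cast_ne_zero.2 (Int.natAbs_ne_zero.2 (discr_ne_zero K))
      have ht : (Units.torsionOrder K : ℚ) ≠ 0 := Nat.cast_ne_zero.2 (NeZero.ne _)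
      field_simp
  · rw [W_sum]
    refine IntBdd.sum _ fun S hS => ?_
    rw [W_sum]
    refine IntBdd.sum _ fun C _ => ?_
    rw [hF, W_smul, W_subFun hk hk2 hw (hN S hS C), classWt, div_eq_mul_inv,
      factor_idealUnit_mul (prod_primesAt_ne_zero (Finset.mem_powerset.1 hS)), ← mul_assoc,
      ← mul_assoc, ← Rat.cast_mul, ← Rat.cast_mul, ← smul_smul]
    exact (intBdd_subFun _ _ hk hk2 hw).smul _

end FA.PadicEulerFactor

end
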