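import Fermat.Agent.PadicEulerFactor.Trace
import Fermat.Agent.PadicEulerFactor.Forms
import Fermat.Agent.TotallyRealKummer.Padic

/-!
# The values of the `p`-adic zeta function

The form with the Euler factors removed is congruent to Siegel's forms of large weight, so the
`p`-adic zeta function takes the value `∏ (1 - N P ^ (k-1)) 2 ^ (-n) ζ (1 - k)` at every even
`k ≥ 2`, `k n ≥ 4`, of its class, and these values satisfy Kummer's congruences without a lower
bound on `k`.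
-/

set_option autoImplicit false
set_option linter.unusedSectionVars false
set_option linter.style.haveILetI false

noncomputable section

open NumberField Module Filter Topology
open UpperHalfPlane (qExpansion)
open scoped Classical MatrixGroups ModularForm

namespace FA.PadicEulerFactor

open FA.SiegelConstant FA.SerreDenominators FA.TotallyRealKummer FA.Eis

variable {p : ℕ} [Fact p.Prime]
variable {K : Type*} [Field K] [NumberField K] [IsTotallyReal K]

theorem pDvd_add {e : ℕ} {x y : ℚ} (hx : PDvd p e x) (hy : PDvd p e y) : PDvd p e (x + y) := by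
  obtain ⟨r, hr, rfl⟩ := hx
  obtain ⟨s, hs, rfl⟩ := hy
  exact ⟨r + s, fun h => ((Fact.out : p.Prime).dvd_mul.1
    (h.trans (Rat.add_den_dvd r s))).elim hr hs, by ring⟩

theorem norm_le_of_pDvd {e : ℕ} {x : ℚ} (h : PDvd p e x) :
    ‖(x : ℚ_[p])‖ ≤ (p : ℝ) ^ (-(e : ℤ)) := by
  obtain ⟨r, hr, rfl⟩ := h
  rw [Rat.cast_mul, Rat.cast_pow, Rat.cast_natCast, norm_mul, Padic.norm_p_pow]
  exact mul_le_of_le_one_right (zpow_nonneg (Nat.cast_nonneg _) _) (Padic.norm_rat_le_one hr)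

theorem not_dvd_shift {k n s : ℕ} (h : ¬(p - 1) ∣ k * n) : ¬(p - 1) ∣ (k + (p - 1) * s) * n :=
  fun hh => h (by
    rw [add_mul, mul_assoc] at hh
    exact (Nat.dvd_add_left (dvd_mul_right _ _)).1 hh)

/-- **The constant term of a form of level `p` against Siegel's values**: coefficients congruent to
those of a larger weight give a congruent constant term. -/
theorem siegelTotal_congr_form {w₀ : ℕ} {B : ℤ} {G : UpperHalfPlane → ℂ}
    {Y U : PowerSeries ℤ} (hB : ¬(p : ℤ) ∣ B) (hG : IsLv p (w₀ : ℤ) G)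
    (hGq : HasQ 1 G ((PowerSeries.C B + (p : PowerSeries ℤ) * Y).map (Int.castRingHom ℂ)))
    (hGW : HasQ 1 (Eis.W p (w₀ : ℤ) G) (((p : PowerSeries ℤ) * U).map (Int.castRingHom ℂ)))
    (h2 : Even w₀) {k : ℕ} (hk : Even k) (hk2 : 2 ≤ k) (hw : 4 ≤ k * finrank ℚ K)
    {f : UpperHalfPlane → ℂ} (hf : IsLv p (wt K k) f) {r : ℚ} {c : ℕ → ℕ}
    (hfq : HasQ 1 f (PowerSeries.mk fun m => if m = 0 then (r : ℂ) else (c m : ℂ)))
    {D D' : ℤ} {T : PowerSeries ℤ}
    (hT : HasQ 1 ((D : ℂ) • Eis.W p (wt K k) f) (T.map (Int.castRingHom ℂ)))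
    {v v₀ d : ℕ} (hDv : D = (p : ℤ) ^ v * D') (hD' : ¬(p : ℤ) ∣ D') (hrd : r.den = p ^ v₀ * d)
    (hd : ¬p ∣ d) {a a' t : ℕ} (ha' : a + v₀ + v ≤ a') (ht : t ≠ 0)
    (hcong : ∀ m : ℕ, m ≠ 0 → (p : ℤ) ^ (a + v₀ + 1) ∣
      (pointSum K (k + w₀ * (p ^ a' * t) - 1) m : ℤ) - (c m : ℤ)) :
    ∃ u z : ℤ, ¬(p : ℤ) ∣ u ∧
      (u : ℚ) * (staudtDen ((k + w₀ * (p ^ a' * t)) * finrank ℚ K) : ℚ) *
        (siegelTotal K (k + w₀ * (p ^ a' * t)) - r) = (p : ℚ) ^ (a + 1) * z := by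
  have hpr : p.Prime := Fact.out
  have hP := Nat.prime_iff_prime_int.1 hpr
  obtain ⟨n, hn⟩ : ∃ n, n = finrank ℚ K := ⟨_, rfl⟩
  have hn0 : n ≠ 0 := hn ▸ finrank_pos.ne'
  have hk' : Even (k + w₀ * (p ^ a' * t)) := hk.add (h2.mul_right _)
  obtain ⟨g, hg0, hg⟩ := exists_siegel_form (K := K) hk' (by omega)
    (hw.trans (Nat.mul_le_mul_right _ (Nat.le_add_right _ _)))
  obtain ⟨S, hS⟩ : ∃ S : PowerSeries ℤ, S = PowerSeries.mk fun m =>
      if m = 0 then r.num else (r.den : ℤ) * (c m : ℤ) := ⟨_, rfl⟩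
  have hfS : HasQ 1 ((r.den : ℂ) • f) (S.map (Int.castRingHom ℂ)) := by
    convert hfq.smul (r.den : ℂ) using 1
    refine PowerSeries.ext fun m => ?_
    rw [PowerSeries.coeff_map, hS, PowerSeries.coeff_mk, PowerSeries.coeff_smul,
      PowerSeries.coeff_mk, eq_intCast, smul_eq_mul]
    split_ifs
    · rw [← Rat.cast_intCast r.num, ← Rat.den_mul_eq_num r]
      push_cast
      rfl
    · push_cast
      rfl
  have hfT : HasQ 1 ((D : ℂ) • Eis.W p (wt K k) ((r.den : ℂ) • f))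
      ((PowerSeries.C (r.den : ℤ) * T).map (Int.castRingHom ℂ)) := by
    convert hT.smul (r.den : ℂ) using 1
    · rw [W_smul, smul_comm]
    · simp [PowerSeries.smul_eq_C_mul]
  have hw' : ((k + w₀ * (p ^ a' * t)) * n : ℕ) =
      k * n + w₀ * (p ^ a' * (t * n)) := by ring
  have hgq : ∀ m : ℕ, (qExpansion 1 ⇑(ModularForm.mcast
      (show (((k + w₀ * (p ^ a' * t)) * finrank ℚ K : ℕ) : ℤ) =
        ((k * finrank ℚ K + w₀ * (p ^ a' * (t * finrank ℚ K)) : ℕ) : ℤ) by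
          rw [← hn, hw'])
      ((r.den : ℂ) • g))).coeff m = (r.den : ℂ) * (qExpansion 1 ⇑g).coeff m := fun m => by
    rw [ModularForm.coe_mcast, FunLike.coe_smul,
      ((FA.Tau.hasQ_form g).smul (r.den : ℂ)).qExpansion_eq one_pos, PowerSeries.coeff_smul,
      smul_eq_mul]
  obtain ⟨u, z, hu, h⟩ := constant_congr_of_unit hB hG hGq hGW (a := a + v₀) (v := v) (a' := a')
    (t := t * finrank ℚ K) (w := k * finrank ℚ K) hDv hD'
    ((hk.mul_right _).add (h2.mul_right _))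
    (hw.trans (Nat.le_add_right _ _))
    (mul_ne_zero ht (hn ▸ hn0)) (by omega) (hf.smul (r.den : ℂ)) hfS hfT _
    (c := fun m => (r.den : ℤ) * (pointSum K (k + w₀ * (p ^ a' * t) - 1) m : ℤ))
    (fun m hm => by rw [hgq, hg m hm]; push_cast; rfl) fun m hm => by
      rw [hS, PowerSeries.coeff_mk, if_neg hm, ← mul_sub]
      refine dvd_mul_of_dvd_right ?_ _
      exact hcong m hm
  rw [hgq, hg0, hS, PowerSeries.coeff_mk, if_pos rfl, ← hn, ← hw'] at h
  refine ⟨u * (d : ℤ), z, fun hh => (hP.dvd_or_dvd hh).elim hu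
    fun hh => hd (Int.natCast_dvd_natCast.1 hh), ?_⟩
  rw [← hn]
  refine Rat.cast_injective (α := ℂ) ?_
  have hpv : (p : ℂ) ^ v₀ ≠ 0 := pow_ne_zero _ (Nat.cast_ne_zero.2 hpr.ne_zero)
  refine mul_left_cancel₀ hpv ?_
  have hnum : ((r.num : ℤ) : ℂ) = ((p : ℂ) ^ v₀ * (d : ℂ)) * (r : ℂ) := by
    rw [← Rat.cast_intCast r.num, ← Rat.den_mul_eq_num r]
    push_cast [hrd]
    ring
  rw [hnum, hrd] at h
  push_cast at h ⊢
  linear_combination h

/-- **Siegel's values approach the value without Euler factors**, for every prime and every unit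
form of weight `w₀`, with the denominator of the large weight. -/
theorem siegelTotal_congr_of_unit {w₀ : ℕ} {B : ℤ} {G : UpperHalfPlane → ℂ}
    {Y U : PowerSeries ℤ} (hB : ¬(p : ℤ) ∣ B) (hG : IsLv p (w₀ : ℤ) G)
    (hGq : HasQ 1 G ((PowerSeries.C B + (p : PowerSeries ℤ) * Y).map (Int.castRingHom ℂ)))
    (hGW : HasQ 1 (Eis.W p (w₀ : ℤ) G) (((p : PowerSeries ℤ) * U).map (Int.castRingHom ℂ)))
    (h2 : Even w₀) (h0 : w₀ ≠ 0) (hdiv : p - 1 ∣ w₀) {k : ℕ} (hk : Even k) (hk2 : 2 ≤ k)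
    (hw : 4 ≤ k * finrank ℚ K) (a : ℕ) :
    ∃ A : ℕ, ∀ a' t : ℕ, A ≤ a' → t ≠ 0 → ∃ u z : ℤ, ¬(p : ℤ) ∣ u ∧
      (u : ℚ) * (staudtDen ((k + w₀ * (p ^ a' * t)) * finrank ℚ K) : ℚ) *
        (siegelTotal K (k + w₀ * (p ^ a' * t)) - eulerVal K p k) = (p : ℚ) ^ (a + 1) * z := by
  have hpr : p.Prime := Fact.out
  have hP := Nat.prime_iff_prime_int.1 hpr
  obtain ⟨f, hf, hfq, D, hD0, T, hT⟩ := exists_euler_form (K := K) (p := p) hk hk2 hw
  obtain ⟨v₀, d, hd, hrd⟩ :=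
    Nat.exists_eq_pow_mul_and_not_dvd (eulerVal K p k).den_ne_zero p hpr.ne_one
  obtain ⟨v, D', hD', hDv⟩ := WfDvdMonoid.max_power_factor hD0 hP.irreducible
  obtain ⟨q, hq⟩ := hdiv
  refine ⟨a + v₀ + v, fun a' t ha' ht => siegelTotal_congr_form hB hG hGq hGW h2 hk hk2 hw hf hfq
    hT hDv hD' hrd hd ha' ht fun m hm => ?_⟩
  haveI : Finite (TracePt K m) := finite_tracePt hk hk2 hw m
  haveI := Fintype.ofFinite (TracePt K m)
  simp only [pointSum, eulerSum, tsum_fintype, Nat.cast_sum]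
  rw [← Finset.sum_sub_distrib]
  refine Finset.dvd_sum fun ξ _ => idealSigma_congr (j := k - 1)
    (t := q * (p ^ (a' - (a + v₀)) * t)) ?_ ?_ (pointIdeal_ne_zero ξ)
  · have e : (p - 1) * (p ^ (a + v₀) * (q * (p ^ (a' - (a + v₀)) * t))) =
        w₀ * (p ^ a' * t) := by
      have e' : p ^ (a + v₀) * p ^ (a' - (a + v₀)) = p ^ a' := by
        rw [← pow_add, Nat.add_sub_cancel' (by omega)]
      rw [hq, ← e']
      ring
    rw [e]
    omega
  · have h1 : a' < w₀ * (p ^ a' * t) := (Nat.lt_pow_self hpr.one_lt).trans_le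
      ((Nat.le_mul_of_pos_right _ (Nat.pos_of_ne_zero ht)).trans
        (Nat.le_mul_of_pos_left _ (Nat.pos_of_ne_zero h0)))
    omega

/-- **Siegel's values of large weight approach the value without Euler factors.** -/
theorem siegelTotal_congr_eulerVal (h5 : 5 ≤ p) {k : ℕ} (hk : Even k) (hk2 : 2 ≤ k)
    (hw : 4 ≤ k * finrank ℚ K) (hdvd : ¬(p - 1) ∣ k * finrank ℚ K) (a : ℕ) :
    ∃ A : ℕ, ∀ a' t : ℕ, A ≤ a' → t ≠ 0 →
      PDvd p (a + 1) (siegelTotal K (k + (p - 1) * (p ^ a' * t)) - eulerVal K p k) := by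
  obtain ⟨B, G, Y, U, hB, hG, hGq, hGW⟩ := exists_level_unit (p := p) h5
  obtain ⟨A, hA⟩ := siegelTotal_congr_of_unit (K := K) hB hG hGq hGW
    ((Fact.out : p.Prime).even_sub_one (by omega)) (by omega) dvd_rfl hk hk2 hw a
  refine ⟨A, fun a' t ha ht => ?_⟩
  obtain ⟨u, z, hu, h⟩ := hA a' t ha ht
  refine pDvd_of_mul (u := u * (staudtDen ((k + (p - 1) * (p ^ a' * t)) * finrank ℚ K) : ℤ))
    (z := z) (fun hh => ?_) (by push_cast; exact h)
  rcases (Nat.prime_iff_prime_int.1 (Fact.out : p.Prime)).dvd_or_dvd hh with hh | hh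
  · exact hu hh
  · exact not_dvd_staudtDen (by omega) (not_dvd_shift hdvd) (Int.natCast_dvd_natCast.1 hh)

/-- **Kummer's congruences with the Euler factors removed**, for all even `k, k' ≥ 2` of weight
`k n, k' n ≥ 4`. -/
theorem kummer_euler (h5 : 5 ≤ p) {a k k' : ℕ} (hk : Even k) (hk2 : 2 ≤ k)
    (hw : 4 ≤ k * finrank ℚ K) (hk2' : 2 ≤ k') (hw' : 4 ≤ k' * finrank ℚ K)
    (hdvd : ¬(p - 1) ∣ k * finrank ℚ K) (hmod : k ≡ k' [MOD (p - 1) * p ^ a]) :
    PDvd p (a + 1) (eulerVal K p k' - eulerVal K p k) := by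
  have hpr : p.Prime := Fact.out
  have heven := hpr.even_sub_one (by omega)
  have hev' : Even k' := by
    rw [Nat.even_iff] at hk ⊢
    have h2 := hmod.of_dvd (dvd_mul_of_dvd_left (heven.two_dvd) _)
    rw [Nat.ModEq] at h2
    omega
  have hn' : ¬(p - 1) ∣ k' * finrank ℚ K := fun hh => hdvd
    (((hmod.of_dvd (dvd_mul_right _ _)).mul_right _).dvd_iff dvd_rfl |>.2 hh)
  obtain ⟨A, hA⟩ := siegelTotal_congr_eulerVal (K := K) h5 hk hk2 hw hdvd a
  obtain ⟨A', hA'⟩ := siegelTotal_congr_eulerVal (K := K) h5 hev' hk2' hw' hn' a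
  obtain ⟨b, hb⟩ : ∃ b, b = max A A' + a + 1 := ⟨_, rfl⟩
  have h1 := hA b 1 (by omega) one_ne_zero
  have h2 := hA' b 1 (by omega) one_ne_zero
  have hbig : a + 2 ≤ 2 + (p - 1) * (p ^ b * 1) := by
    have := (Nat.lt_pow_self hpr.one_lt (n := b)).trans_le
      (Nat.le_mul_of_pos_left (n := p - 1) (p ^ b) (by omega))
    rw [mul_one]
    omega
  have h3 := TotallyRealKummer.kummer (K := K) h5 (a := a) (k := k + (p - 1) * (p ^ b * 1))
    (k' := k' + (p - 1) * (p ^ b * 1)) (hk.add (heven.mul_right _)) (by omega) (by omega)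
    (hw.trans (Nat.mul_le_mul_right _ (Nat.le_add_right _ _)))
    (by omega) (by omega)
    (hw'.trans (Nat.mul_le_mul_right _ (Nat.le_add_right _ _)))
    (not_dvd_shift hdvd) (hmod.add_right _)
  have e : eulerVal K p k' - eulerVal K p k =
      (siegelTotal K (k + (p - 1) * (p ^ b * 1)) - eulerVal K p k) +
        (siegelTotal K (k' + (p - 1) * (p ^ b * 1)) -
          siegelTotal K (k + (p - 1) * (p ^ b * 1))) +
        -(siegelTotal K (k' + (p - 1) * (p ^ b * 1)) - eulerVal K p k') := by ring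
  rw [e]
  exact pDvd_add (pDvd_add h1 h3) h2.neg

/-- **The values without Euler factors are `p`-integral.** -/
theorem eulerVal_integral (h5 : 5 ≤ p) {k : ℕ} (hk : Even k) (hk2 : 2 ≤ k)
    (hw : 4 ≤ k * finrank ℚ K) (hdvd : ¬(p - 1) ∣ k * finrank ℚ K) : ¬p ∣ (eulerVal K p k).den := by
  have hpr : p.Prime := Fact.out
  obtain ⟨A, hA⟩ := siegelTotal_congr_eulerVal (K := K) h5 hk hk2 hw hdvd 0
  have h1 := hA A 1 le_rfl one_ne_zero
  have hev : Even (k + (p - 1) * (p ^ A * 1)) := hk.add ((hpr.even_sub_one (by omega)).mul_right _)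
  have h2 := TotallyRealKummer.siegelTotal_integral (K := K) h5 hev (by omega)
    (hw.trans (Nat.mul_le_mul_right _ (Nat.le_add_right _ _)))
    (not_dvd_shift hdvd)
  obtain ⟨r, hr, e⟩ := h1.neg
  have hv : eulerVal K p k = siegelTotal K (k + (p - 1) * (p ^ A * 1)) + (p : ℚ) ^ (0 + 1) * r := by
    rw [← e]; ring
  rw [hv]
  intro hd
  have h3 : ((p : ℚ) ^ (0 + 1) * r).den ∣ r.den := by
    refine (Rat.mul_den_dvd _ _).trans ?_
    simp
  rcases hpr.dvd_mul.1 (hd.trans (Rat.add_den_dvd _ _)) with hd | hd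
  · exact h2 hd
  · exact hr (hd.trans h3)

variable {k₀ : ℕ}

/-- **Interpolation**: the function takes the values without Euler factors. -/
theorem zeta_interpolation (h : GoodClass K p k₀) {k : ℕ} (hk2 : 2 ≤ k)
    (hw : 4 ≤ k * finrank ℚ K) {i : ℤ}
    (hi : (k : ℤ) = k₀ + ((p - 1 : ℕ) : ℤ) * i) :
    ((h.zeta (i : ℤ_[p]) : ℤ_[p]) : ℚ_[p]) = (eulerVal K p k : ℚ_[p]) := by
  have hpr : p.Prime := Fact.out
  have h5 := h.five
  have hk : Even k := by
    have h1 : Even ((k₀ : ℤ) + ((p - 1 : ℕ) : ℤ) * i) :=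
      ((Int.even_coe_nat _).2 h.even).add
        (((Int.even_coe_nat _).2 (hpr.even_sub_one (by omega))).mul_right _)
    rwa [← hi, Int.even_coe_nat] at h1
  have hdvd : ¬(p - 1) ∣ k * finrank ℚ K := fun hh => h.not_dvd (by
    rw [← Int.natCast_dvd_natCast, Nat.cast_mul] at hh ⊢
    rw [hi, add_mul, mul_assoc] at hh
    exact (dvd_add_left (dvd_mul_right _ _)).1 hh)
  refine eq_of_forall_dist_le fun ε hε => ?_
  obtain ⟨a, ha⟩ := PadicInt.exists_pow_neg_lt p hε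
  refine le_of_lt (lt_of_le_of_lt ?_ ha)
  obtain ⟨A, hA⟩ := siegelTotal_congr_eulerVal (K := K) h5 hk hk2 hw hdvd a
  obtain ⟨b, hb⟩ : ∃ b, b = A + a := ⟨_, rfl⟩
  obtain ⟨t, ht⟩ : ∃ t, t = i.natAbs + 1 := ⟨_, rfl⟩
  have h1 := norm_le_of_pDvd (hA b t (by omega) (by omega))
  have hpb : 1 ≤ p ^ b := Nat.one_le_pow _ _ hpr.pos
  obtain ⟨j, hj⟩ : ∃ j : ℕ, (j : ℤ) = i + ((p ^ b * t : ℕ) : ℤ) := by
    refine ⟨(i + ((p ^ b * t : ℕ) : ℤ)).toNat, Int.toNat_of_nonneg ?_⟩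
    have : t ≤ p ^ b * t := Nat.le_mul_of_pos_left _ hpb
    omega
  have hkj : kOf p k₀ j = k + (p - 1) * (p ^ b * t) := by
    have e : ((kOf p k₀ j : ℕ) : ℤ) = ((k + (p - 1) * (p ^ b * t) : ℕ) : ℤ) := by
      simp only [kOf, Nat.cast_add, Nat.cast_mul, hi, hj]
      ring
    exact_mod_cast e
  have hle : a + 2 ≤ kOf p k₀ j := by
    rw [hkj]
    have : b < (p - 1) * (p ^ b * t) := (Nat.lt_pow_self hpr.one_lt).trans_le
      ((Nat.le_mul_of_pos_right _ (by omega)).trans (Nat.le_mul_of_pos_left _ (by omega)))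
    omega
  have hx : ‖((i : ℤ_[p])) - (j : ℤ_[p])‖ ≤ (p : ℝ) ^ (-(a : ℤ)) := by
    rw [PadicInt.norm_le_pow_iff_mem_span_pow, Ideal.mem_span_singleton]
    refine ⟨-((p : ℤ_[p]) ^ A * t), ?_⟩
    have := congrArg (Int.cast : ℤ → ℤ_[p]) hj
    push_cast at this
    rw [this, hb, pow_add]
    ring
  have h2 := h.norm_zeta_sub hle hx
  have hval : ((h.val j : ℤ_[p]) : ℚ_[p]) =
      (siegelTotal K (k + (p - 1) * (p ^ b * t)) : ℚ_[p]) := by
    rw [← hkj]
    rfl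
  rw [PadicInt.norm_def, PadicInt.coe_sub, hval] at h2
  rw [Rat.cast_sub] at h1
  rw [dist_eq_norm, ← sub_add_sub_cancel _
    ((siegelTotal K (k + (p - 1) * (p ^ b * t)) : ℚ_[p])) _]
  exact ((Padic.nonarchimedean _ _).trans (max_le h2 h1)).trans (pow_neg_le (Nat.le_succ a))

/-- **Uniqueness**: a continuous function with these values is the zeta function. -/
theorem zeta_unique (h : GoodClass K p k₀) {G : ℤ_[p] → ℤ_[p]} (hG : Continuous G)
    (hval : ∀ i : ℕ, 4 ≤ kOf p k₀ i → ((G i : ℤ_[p]) : ℚ_[p]) =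
      (eulerVal K p (kOf p k₀ i) : ℚ_[p])) : G = h.zeta := by
  have hz : Continuous h.zeta := by
    refine continuous_iff_continuousAt.2 fun x => ?_
    refine Metric.continuousAt_iff.2 fun ε hε => ⟨ε, hε, fun {y} hy => ?_⟩
    rw [dist_eq_norm] at hy ⊢
    refine lt_of_le_of_lt (h.norm_zeta_sub_zeta y x) (lt_of_le_of_lt ?_ hy)
    exact div_le_self (norm_nonneg _) (by exact_mod_cast (Fact.out : p.Prime).one_lt.le)
  funext x
  obtain ⟨h1, -⟩ := tendsto_index (p := p) x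
  refine tendsto_nhds_unique ((hG.tendsto x).comp h1) (((hz.tendsto x).comp h1).congr' ?_)
  filter_upwards [eventually_ge_atTop 4] with a ha
  have hbig : 4 ≤ kOf p k₀ (index p x a) := le_trans (by omega) (le_kOf_index x a)
  refine Subtype.ext ?_
  show ((h.zeta (index p x a : ℤ_[p]) : ℤ_[p]) : ℚ_[p]) = (G (index p x a) : ℚ_[p])
  rw [hval _ hbig, ← zeta_interpolation h (le_trans (by norm_num) hbig)
    (hbig.trans (Nat.le_mul_of_pos_right _ finrank_pos)) (i := (index p x a : ℤ))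
    (by simp [kOf]), Int.cast_natCast]

end FA.PadicEulerFactor

end
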