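import Fermat.Agent.PadicEulerFactor.WeightTwo

/-!
# The expansions at both cusps

The series of `(A, B)` has the constant term of `B` and, at `q ^ m`, the pairs of trace `m` whose
first entry lies in `A`; it is a form of level `p` and its substitution is the series of `(p B, A)`.
-/

set_option autoImplicit false
set_option linter.unusedSectionVars false
set_option linter.style.haveILetI false

noncomputable section

open NumberField InfinitePlace Module Filter
open UpperHalfPlane hiding I
open Complex (I)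
open scoped Real nonZeroDivisors Classical MatrixGroups ModularForm

namespace FA.PadicEulerFactor

open FA.HeckeFE FA.SiegelKlingen FA.SiegelConstant FA.Eis

variable {K : Type*} [Field K] [NumberField K] [IsTotallyReal K]
variable (A B : (FractionalIdeal (𝓞 K)⁰ K)ˣ)

/-- The pairs with first entry in `A`. -/
abbrev SubPairs : Type _ := {y : PosPairs B // y.1.1.1 ∈ (A : Set K)}

/-- The coefficient of `q ^ m`, up to the factor. -/
def subTrace (k m : ℕ) : ℚ :=
  ∑' y : {y : SubPairs A B // level B y.1 = m},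
    |Algebra.norm ℚ ((y.1.1 : PosPairs B).1.2 : K)| ^ (k - 1)

theorem finite_subLevel {k : ℕ} (hk : Even k) (hk2 : 2 ≤ k) (hw : 4 ≤ k * finrank ℚ K) (m : ℕ) :
    Finite {y : SubPairs A B // level B y.1 = m} := by
  haveI : Finite {y : PosPairs B // level B y = m} :=
    (finite_level B hk hk2 (series_ready hk hk2 hw B).1 m).to_subtype
  refine Finite.of_injective (β := {y : PosPairs B // level B y = m}) (fun y => ⟨y.1.1, y.2⟩)
    fun y y' h => ?_
  exact Subtype.ext (Subtype.ext (by simpa only [Subtype.mk.injEq] using h))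

variable {A B}

/-- **The expansion.** -/
theorem hasQ_subFun {k : ℕ} (hk : Even k) (hk2 : 2 ≤ k) (hw : 4 ≤ k * finrank ℚ K) :
    HasQ 1 (subFun A B k) (PowerSeries.mk fun m =>
      if m = 0 then (constSum B k : ℂ) else factor B k * (subTrace A B k m : ℂ)) := fun τ => by
  obtain ⟨F, hF⟩ : ∃ F : {c : Rep B // c.1 ∈ (A : Set K)} × ↥(dualIdeal B : Set K) → ℂ, ∀ q, F q =
      (coef k q.1.1.1 (q.2 : K) : ℂ) * Complex.exp (2 * π * I * τ *
        ((Algebra.trace ℚ K (q.1.1.1 * (q.2 : K)) : ℚ) : ℂ)) := ⟨_, fun _ => rfl⟩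
  have hin : ∀ c : {c : Rep B // c.1 ∈ (A : Set K)}, HasSum (fun ν => F (c, ν))
      ((factor B k)⁻¹ * ∑' d : ↥(B : Set K), eisTerm k τ c.1.1 d) := fun c => by
    simp only [hF]
    exact (lipschitz_ideal B hk hk2 (Rep.ne_zero B c.1) τ).2
  have hsum : Summable F := (((series_ready hk hk2 hw B).1 τ).comp_injective
    (i := fun q : {c : Rep B // c.1 ∈ (A : Set K)} × ↥(dualIdeal B : Set K) => (q.1.1, q.2))
      fun q q' h => by
        simp only [Prod.mk.injEq] at h
        exact Prod.ext (Subtype.ext h.1) h.2).congr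
        fun q => (hF q).symm
  have htot := hsum.hasSum
  rw [hsum.tsum_prod, tsum_congr fun c => (hin c).tsum_eq, tsum_mul_left] at htot
  obtain ⟨ι, hι⟩ : ∃ ι : SubPairs A B → {c : Rep B // c.1 ∈ (A : Set K)} × ↥(dualIdeal B : Set K),
      ∀ y, ι y = (⟨y.1.1.1, y.2⟩, y.1.1.2) := ⟨_, fun _ => rfl⟩
  have hinj : Function.Injective ι := fun y y' h => by
    rw [hι, hι] at h
    simp only [Prod.mk.injEq, Subtype.mk.injEq] at h
    exact Subtype.ext (Subtype.ext (Prod.ext h.1 h.2))
  have hsub := (hinj.hasSum_iff fun q hq => ?_).2 htot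
  swap
  · rw [hF, coef, if_neg ?_, Rat.cast_zero, zero_mul]
    intro hp
    exact hq ⟨⟨⟨(q.1.1, q.2), hp⟩, q.1.2⟩, by rw [hι]⟩
  have hy : HasSum (fun y : SubPairs A B => posTerm B k (τ : ℂ) y.1) _ := hsub.congr_fun fun y => by
    rw [Function.comp_apply, hι, hF, posTerm, coef, if_pos y.1.2]
  rw [← (Equiv.sigmaFiberEquiv fun y : SubPairs A B => level B y.1).hasSum_iff] at hy
  have hfib := hy.sigma (g := fun m => (subTrace A B k m : ℂ) *
      Function.Periodic.qParam (1 : ℝ) (τ : ℂ) ^ m) fun m => by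
    haveI := finite_subLevel A B hk hk2 hw m
    haveI := Fintype.ofFinite {y : SubPairs A B // level B y.1 = m}
    convert hasSum_fintype _ using 1
    rw [subTrace, tsum_fintype, Rat.cast_sum, Finset.sum_mul]
    refine Finset.sum_congr rfl fun y _ => ?_
    simp only [Function.comp_apply, Equiv.sigmaFiberEquiv_apply, posTerm]
    rw [← (level_spec B y.1.1).1, y.2, Function.Periodic.qParam, ← Complex.exp_nat_mul,
      Complex.ofReal_one, div_one]
    push_cast
    congr 2
    ring
  have e : subFun A B k τ = (constSum B k : ℂ) + factor B k * ((factor B k)⁻¹ *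
      ∑' c : {c : Rep B // c.1 ∈ (A : Set K)}, ∑' d : ↥(B : Set K), eisTerm k (τ : ℂ) c.1.1 d) := by
    rw [subFun, ← mul_assoc, mul_inv_cancel₀ (factor_ne_zero B k), one_mul]
  show HasSum _ (subFun A B k τ)
  rw [e]
  refine ((hasSum_ite_eq 0 (constSum B k : ℂ)).add (hfib.mul_left (factor B k))).congr_fun
    fun m => ?_
  rw [PowerSeries.coeff_mk]
  rcases eq_or_ne m 0 with rfl | hm
  · have : IsEmpty {y : SubPairs A B // level B y.1 = 0} := ⟨fun y => (level_spec B y.1.1).2 y.2⟩
    simp [subTrace]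
  · simp [hm]
    ring

/-- The weight. -/
abbrev wt (K : Type*) [Field K] [NumberField K] (k : ℕ) : ℤ := ((k * finrank ℚ K : ℕ) : ℤ)

theorem subFun_inv {p : ℕ} {k : ℕ} (hk : Even k) (hk2 : 2 ≤ k) (hw : 4 ≤ k * finrank ℚ K)
    (h : Nested p A B) {g : SL(2, ℤ)} (hg : g ∈ CongruenceSubgroup.Gamma0 p) :
    subFun A B k ∣[wt K k] g = subFun A B k :=
  (FA.ModField.slash_eq_iff_smul g).2 fun τ => by
    rw [subFun_smul hk hk2 hw h (mem_Gamma0_iff_dvd.1 hg) τ, zpow_natCast]

theorem W_subFun {p : ℕ} [NeZero p] {k : ℕ} (hk : Even k) (hk2 : 2 ≤ k)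
    (hw : 4 ≤ k * finrank ℚ K) (h : Nested p A B) :
    Eis.W p (wt K k) (subFun A B k) = subFun (pMul B p) A k := funext fun τ => by
  rw [W_apply, zpow_neg, zpow_natCast]
  exact subFun_swap hk hk2 hw h τ

/-- **A form of level `p`.** -/
theorem isLv_subFun {p : ℕ} [Fact p.Prime] {k : ℕ} (hk : Even k) (hk2 : 2 ≤ k)
    (hw : 4 ≤ k * finrank ℚ K) (h : Nested p A B) : IsLv p (wt K k) (subFun A B k) where
  inv _ hg := subFun_inv hk hk2 hw h hg
  hol := (hasQ_subFun hk hk2 hw).mdiff one_pos
  bdd := by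
    refine bddAllCusps_of_prime (fun g hg => subFun_inv hk hk2 hw h hg)
      ((hasQ_subFun hk hk2 hw).bdd one_pos) ?_
    have hS : subFun A B k ∣[wt K k] ModularGroup.S =
        fun τ : ℍ => subFun (pMul B p) A k (fdivPt p 0 τ) :=
      funext fun τ => by
      have h2 := slash_S_eq_W p (wt K k) (subFun A B k) 0 τ
      rw [Nat.cast_zero, zpow_zero, SlashAction.slash_one, W_subFun hk hk2 hw h] at h2
      exact h2
    rw [hS]
    exact ((hasQ_subFun hk hk2 hw).fdiv p 0).bdd (by exact_mod_cast (Fact.out : p.Prime).pos)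

/-- From weight four on these are the sums over the orbits. -/
theorem subSum_eq_subFun {k : ℕ} (hk : Even k) (hk4 : 4 ≤ k) :
    (fun τ : ℍ => subSum A B k (τ : ℂ)) = subFun A B k :=
  funext fun τ => (subFun_eq_subSum hk hk4 τ).symm

end FA.PadicEulerFactor

end
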