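import Fermat.Agent.TotallyRealKummer.ConstantTerm
import Fermat.Agent.Eisenstein.LevelP

/-!
# Constant congruences from level `p` to level one

`G = B E_{p-1} - p ^ (p-1) (B E_{p-1})(p τ)` is congruent to `B` modulo `p` and its substitution is
divisible by `p`. The trace of `f G ^ N` is therefore a level one form congruent to `B ^ N f`, and
a level one form with the same higher coefficients as `f` has the same constant term modulo `p`.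
-/

set_option autoImplicit false

noncomputable section

open UpperHalfPlane hiding I
open PowerSeries
open scoped MatrixGroups ModularForm

namespace FA.PadicEulerFactor

open FA.Eis FA.Tau FA.SerreDenominators FA.TotallyRealKummer

variable {p : ℕ} [Fact p.Prime]

local notation "toC" => PowerSeries.map (Int.castRingHom ℂ)

theorem W_zero_one : W p 0 (1 : ℍ → ℂ) = 1 := by
  funext τ
  rw [W_apply, neg_zero, zpow_zero, mul_one]
  rfl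

theorem isLv_pow {j : ℤ} {G : ℍ → ℂ} (hG : IsLv p j G) (N : ℕ) :
    IsLv p ((N : ℤ) * j) (G ^ N) ∧ W p ((N : ℤ) * j) (G ^ N) = W p j G ^ N := by
  induction N with
  | zero =>
    rw [Nat.cast_zero, zero_mul, pow_zero, pow_zero]
    exact ⟨IsLv.one p, W_zero_one⟩
  | succ N ih =>
    rw [Nat.cast_succ, add_mul, one_mul, pow_succ, pow_succ, W_mul, ih.2]
    exact ⟨ih.1.mul hG, rfl⟩

theorem Vp_C {R : Type*} [CommRing R] (r : R) : Vp p (C r) = C r :=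
  AlgHom.commutes (Vp (R := R) p) r

theorem map_Vp (A : PowerSeries ℤ) : toC (Vp p A) = Vp p (toC A) := by
  ext n
  simp only [coeff_map, coeff_Vp]
  split_ifs <;> simp

/-- **A unit form of level `p`** from a level one form congruent to a constant. -/
theorem exists_level_unit_of_form {j : ℕ} (hj : j ≠ 0) (E : ModularForm 𝒮ℒ (j : ℤ)) {B : ℤ}
    {Y : PowerSeries ℤ} (hE : qExpansion 1 ⇑E = toC (C B + (p : PowerSeries ℤ) * Y)) :
    ∃ (G : ℍ → ℂ) (Y' U : PowerSeries ℤ), IsLv p (j : ℤ) G ∧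
      HasQ 1 G (toC (C B + (p : PowerSeries ℤ) * Y')) ∧
      HasQ 1 (W p (j : ℤ) G) (toC ((p : PowerSeries ℤ) * U)) := by
  obtain ⟨Q, hQdef⟩ : ∃ Q : PowerSeries ℤ, Q = C B + (p : PowerSeries ℤ) * Y := ⟨_, rfl⟩
  have hQ : HasQ 1 ⇑E (toC Q) := hQdef ▸ hE ▸ hasQ_form E
  have hE1 := IsLv.of_modularForm E
  obtain ⟨q, hq⟩ : ∃ q : ℂ, q = (p : ℂ) ^ j := ⟨_, rfl⟩
  have hp0 : (p : ℂ) ≠ 0 := Nat.cast_ne_zero.2 (Fact.out : p.Prime).ne_zero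
  refine ⟨⇑E - q • dil p ⇑E, Y - C ((p : ℤ) ^ (j - 1)) * Vp p Q, Vp p Y - Y,
    (hE1.of_levelOne p).sub ((hE1.dil p).smul q), ?_, ?_⟩
  · convert hQ.sub ((hQ.dil p).smul q) using 1
    rw [← map_Vp, PowerSeries.smul_eq_C_mul, hq]
    have e : C B + (p : PowerSeries ℤ) * (Y - C ((p : ℤ) ^ (j - 1)) * Vp p Q) =
        Q - C ((p : ℤ) ^ j) * Vp p Q := by
      obtain ⟨i, rfl⟩ := Nat.exists_eq_succ_of_ne_zero hj
      rw [Nat.succ_sub_one, pow_succ, map_mul, map_natCast, hQdef]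
      ring
    rw [e, map_sub, map_mul, map_C]
    simp
  · have hWE : W p (j : ℤ) ⇑E = dil p ⇑E := by rw [W, hE1.inv']
    have hW : W p (j : ℤ) (⇑E - q • dil p ⇑E) = dil p ⇑E - ⇑E := by
      rw [W_sub, W_smul, W_dil hE1, hWE, smul_smul, hq, zpow_neg, zpow_natCast,
        mul_inv_cancel₀ (pow_ne_zero _ hp0), one_smul]
    rw [hW]
    convert (hQ.dil p).sub hQ using 1
    rw [← map_Vp, ← map_sub, hQdef]
    congr 1
    rw [map_add, map_mul, Vp_C, map_natCast]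
    ring

/-- **The unit form for `p ≥ 5`.** -/
theorem exists_level_unit (h5 : 5 ≤ p) : ∃ (B : ℤ) (G : ℍ → ℂ) (Y U : PowerSeries ℤ),
    ¬(p : ℤ) ∣ B ∧ IsLv p ((p - 1 : ℕ) : ℤ) G ∧ HasQ 1 G (toC (C B + (p : PowerSeries ℤ) * Y)) ∧
      HasQ 1 (W p ((p - 1 : ℕ) : ℤ) G) (toC ((p : PowerSeries ℤ) * U)) := by
  obtain ⟨B, E, Y, hB, -, hE⟩ := exists_unit_form (p := p) h5
  obtain ⟨G, Y', U, hG, hGq, hGW⟩ := exists_level_unit_of_form (by omega) E hE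
  exact ⟨B, G, Y', U, hB, hG, hGq, hGW⟩

omit [Fact p.Prime] in
/-- Powers of a series congruent to a constant modulo `p`. -/
theorem exists_pow_congr (B : ℤ) (Y : PowerSeries ℤ) (a' t : ℕ) :
    ∃ Z, (C B + (p : PowerSeries ℤ) * Y) ^ (p ^ a' * t) =
      C (B ^ (p ^ a' * t)) + C ((p : ℤ) ^ (a' + 1)) * Z := by
  have h : (p : PowerSeries ℤ) ∣ (C B + (p : PowerSeries ℤ) * Y) - C B := ⟨Y, by ring⟩
  obtain ⟨Z, hZ⟩ := (dvd_sub_pow_of_dvd_sub h a').trans (sub_dvd_pow_sub_pow _ _ t)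
  refine ⟨Z, ?_⟩
  simp only [natCast_series, map_pow, ← pow_mul] at hZ ⊢
  linear_combination hZ

/-- **The congruence of constant terms**, any prime and any unit form. -/
theorem constant_congr_of_unit {a v a' t w j : ℕ} {D D' B : ℤ} {G : ℍ → ℂ} {Y U : PowerSeries ℤ}
    (hB : ¬(p : ℤ) ∣ B) (hG : IsLv p (j : ℤ) G)
    (hGq : HasQ 1 G (toC (C B + (p : PowerSeries ℤ) * Y)))
    (hGW : HasQ 1 (W p (j : ℤ) G) (toC ((p : PowerSeries ℤ) * U)))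
    (hD : D = (p : ℤ) ^ v * D') (hD' : ¬(p : ℤ) ∣ D') (hev' : Even (w + j * (p ^ a' * t)))
    (hw4 : 4 ≤ w + j * (p ^ a' * t)) (ht : t ≠ 0) (ha : a + v ≤ a') {f : ℍ → ℂ}
    (hf : IsLv p (w : ℤ) f) {S T : PowerSeries ℤ}
    (hS : HasQ 1 f (toC S)) (hT : HasQ 1 ((D : ℂ) • W p (w : ℤ) f) (toC T))
    (g : ModularForm 𝒮ℒ ((w + j * (p ^ a' * t) : ℕ) : ℤ)) {c : ℕ → ℤ}
    (hg : ∀ m : ℕ, m ≠ 0 → (qExpansion 1 g).coeff m = (c m : ℂ))
    (hcong : ∀ m : ℕ, m ≠ 0 → (p : ℤ) ^ (a + 1) ∣ c m - coeff m S) :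
    ∃ u z : ℤ, ¬(p : ℤ) ∣ u ∧
      (u : ℂ) * (staudtDen (w + j * (p ^ a' * t)) : ℂ) *
        ((qExpansion 1 g).coeff 0 - ((coeff 0 S : ℤ) : ℂ)) = (p : ℂ) ^ (a + 1) * z := by
  have hpr : p.Prime := Fact.out
  obtain ⟨Z, hZ⟩ := exists_pow_congr (p := p) B Y a' t
  obtain ⟨N, hN⟩ : ∃ N, N = p ^ a' * t := ⟨_, rfl⟩
  have hNa : a' + 1 ≤ N := hN ▸ (Nat.lt_pow_self hpr.one_lt).trans_le
    (Nat.le_mul_of_pos_right _ (Nat.pos_of_ne_zero ht))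
  revert g
  rw [← hN] at hev' hw4 hZ ⊢
  intro g hg
  have hwt : (w : ℤ) + (N : ℤ) * (j : ℤ) = ((w + j * N : ℕ) : ℤ) := by
    push_cast
    ring
  have hWG : W p ((w + j * N : ℕ) : ℤ) ((D : ℂ) • (f * G ^ N)) =
      ((D : ℂ) • W p (w : ℤ) f) * W p (j : ℤ) G ^ N := by
    rw [W_smul, ← hwt, W_mul, (isLv_pow hG N).2, smul_mul_assoc]
  have hΨ : IsLv p ((w + j * N : ℕ) : ℤ) ((D : ℂ) • (f * G ^ N)) :=
    (hwt ▸ hf.mul (isLv_pow hG N).1).smul _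
  obtain ⟨R, hR⟩ : ∃ R : PowerSeries ℤ, R = C D * (S * (C B + (p : PowerSeries ℤ) * Y) ^ N) +
      C ((p : ℤ) ^ (N + 1)) * Up p (T * U ^ N) := ⟨_, rfl⟩
  have hevZ : Even ((w + j * N : ℕ) : ℤ) := by exact_mod_cast hev'
  obtain ⟨Φ, hΦ⟩ : ∃ Φ : ModularForm 𝒮ℒ ((w + j * N : ℕ) : ℤ),
      qExpansion 1 ⇑Φ = toC R := by
    refine ⟨(isLv_one_trace hevZ hΨ).toMF, ?_⟩
    have hA : HasQ 1 ((D : ℂ) • (f * G ^ N))
        ((D : ℂ) • (toC S * toC (C B + (p : PowerSeries ℤ) * Y) ^ N)) :=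
      (hS.mul one_pos (hGq.pow one_pos N)).smul _
    have hB' : HasQ 1 (W p ((w + j * N : ℕ) : ℤ) ((D : ℂ) • (f * G ^ N)))
        (toC T * toC ((p : PowerSeries ℤ) * U) ^ N) :=
      hWG ▸ hT.mul one_pos (hGW.pow one_pos N)
    refine ((hasQ_trace hevZ hΨ hA hB').qExpansion_eq one_pos).trans ?_
    have e : T * ((p : PowerSeries ℤ) * U) ^ N = C ((p : ℤ) ^ N) * (T * U ^ N) := by
      rw [mul_pow, map_pow, map_natCast]
      ring
    rw [← map_pow, ← map_mul, ← map_pow, ← map_mul, e, ← PowerSeries.smul_eq_C_mul, ← map_Up,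
      map_smul (Up p), PowerSeries.smul_eq_C_mul, PowerSeries.smul_eq_C_mul,
      PowerSeries.smul_eq_C_mul, hR, map_add, map_mul (PowerSeries.map _) (C D),
      map_mul (PowerSeries.map _) (C ((p : ℤ) ^ (N + 1))),
      map_mul (PowerSeries.map _) (C ((p : ℤ) ^ N)), map_C, map_C, map_C, ← mul_assoc,
      ← map_mul (C : ℂ →+* PowerSeries ℂ)]
    simp [pow_succ']
  have hRm : ∀ m, coeff m R = D * (B ^ N * coeff m S + (p : ℤ) ^ (a' + 1) * coeff m (S * Z)) +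
      (p : ℤ) ^ (N + 1) * coeff m (Up p (T * U ^ N)) := fun m => by
    rw [hR, map_add, coeff_C_mul, coeff_C_mul, hZ, mul_add, map_add, mul_comm S (C _),
      coeff_C_mul, mul_left_comm S, coeff_C_mul]
  obtain ⟨i, hi⟩ : ∃ i, a' + 1 = a + 1 + v + i := ⟨a' - a - v, by omega⟩
  obtain ⟨i₂, hi₂⟩ : ∃ i, N + 1 = a + 1 + v + i := ⟨N - a - v, by omega⟩
  obtain ⟨q, hq⟩ : ∃ q : ℂ, q = (p : ℂ) ^ (a + 1 + v) := ⟨_, rfl⟩
  have hq0 : q ≠ 0 := hq ▸ pow_ne_zero _ (Nat.cast_ne_zero.2 hpr.ne_zero)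
  obtain ⟨h, hh⟩ : ∃ h : ModularForm 𝒮ℒ ((w + j * N : ℕ) : ℤ),
      h = q⁻¹ • (((B : ℂ) ^ N * (D : ℂ)) • g - Φ) := ⟨_, rfl⟩
  have hcoef : ∀ m, (qExpansion 1 h).coeff m = q⁻¹ * ((B : ℂ) ^ N * (D : ℂ) *
      (qExpansion 1 g).coeff m - ((coeff m R : ℤ) : ℂ)) := fun m => by
    have hQ := (((hasQ_form g).smul ((B : ℂ) ^ N * (D : ℂ))).sub (hΦ ▸ hasQ_form Φ)).smul q⁻¹
    rw [hh, FunLike.coe_smul, FunLike.coe_sub, FunLike.coe_smul ((B : ℂ) ^ N * (D : ℂ)) g,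
      hQ.qExpansion_eq one_pos, PowerSeries.coeff_smul, map_sub, PowerSeries.coeff_smul, coeff_map,
      eq_intCast, smul_eq_mul, smul_eq_mul]
  choose b hb using hcong
  obtain ⟨z, hz⟩ := den_mul_mem hev' hw4 h fun m hm =>
    ⟨B ^ N * D' * b m hm - D * (p : ℤ) ^ i * coeff m (S * Z) -
        (p : ℤ) ^ i₂ * coeff m (Up p (T * U ^ N)), by
      rw [hcoef, hg m hm, hRm, hi, hi₂, hD, inv_mul_eq_iff_eq_mul₀ hq0, hq]
      have := congrArg (Int.cast : ℤ → ℂ) (hb m hm)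
      simp only [pow_add] at this ⊢
      push_cast at this ⊢
      linear_combination (B : ℂ) ^ N * (p : ℂ) ^ v * (D' : ℂ) * this⟩
  refine ⟨B ^ N * D', z + staudtDen (w + j * N) * (D * (p : ℤ) ^ i * coeff 0 (S * Z) +
    (p : ℤ) ^ i₂ * coeff 0 (Up p (T * U ^ N))), fun hd => ?_, ?_⟩
  · rcases (Nat.prime_iff_prime_int.1 hpr).dvd_or_dvd hd with hd | hd
    · exact hB ((Nat.prime_iff_prime_int.1 hpr).dvd_of_dvd_pow hd)
    · exact hD' hd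
  · rw [hcoef, hRm, hi, hi₂, mul_left_comm, inv_mul_eq_iff_eq_mul₀ hq0, hq] at hz
    have hpv : (p : ℂ) ^ v ≠ 0 := pow_ne_zero _ (Nat.cast_ne_zero.2 hpr.ne_zero)
    refine mul_left_cancel₀ hpv ?_
    rw [hD] at hz ⊢
    simp only [pow_add] at hz ⊢
    push_cast at hz ⊢
    linear_combination hz

/-- **The congruence of constant terms**, `p ≥ 5`. -/
theorem constant_congr_levelP (h5 : 5 ≤ p) {a v a' t w : ℕ} {D D' : ℤ}
    (hD : D = (p : ℤ) ^ v * D') (hD' : ¬(p : ℤ) ∣ D') (hev : Even w) (ht : t ≠ 0)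
    (ha : a + v ≤ a') {f : ℍ → ℂ} (hf : IsLv p (w : ℤ) f) {S T : PowerSeries ℤ}
    (hS : HasQ 1 f (toC S)) (hT : HasQ 1 ((D : ℂ) • W p (w : ℤ) f) (toC T))
    (g : ModularForm 𝒮ℒ ((w + (p - 1) * (p ^ a' * t) : ℕ) : ℤ)) {c : ℕ → ℤ}
    (hg : ∀ m : ℕ, m ≠ 0 → (qExpansion 1 g).coeff m = (c m : ℂ))
    (hcong : ∀ m : ℕ, m ≠ 0 → (p : ℤ) ^ (a + 1) ∣ c m - coeff m S) :
    ∃ u z : ℤ, ¬(p : ℤ) ∣ u ∧
      (u : ℂ) * (staudtDen (w + (p - 1) * (p ^ a' * t)) : ℂ) *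
        ((qExpansion 1 g).coeff 0 - ((coeff 0 S : ℤ) : ℂ)) = (p : ℂ) ^ (a + 1) * z := by
  obtain ⟨B, G, Y, U, hB, hG, hGq, hGW⟩ := exists_level_unit (p := p) h5
  have hpos : 4 * 1 ≤ (p - 1) * (p ^ a' * t) := Nat.mul_le_mul (by omega)
    (Nat.one_le_iff_ne_zero.2 (mul_ne_zero (pow_ne_zero _ (Fact.out : p.Prime).ne_zero) ht))
  exact constant_congr_of_unit hB hG hGq hGW hD hD'
    (hev.add (((Fact.out : p.Prime).even_sub_one (by omega)).mul_right _)) (by omega) ht ha hf hS hT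
    g hg hcong

end FA.PadicEulerFactor

end
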