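import Fermat.Agent.PadicEulerFactor.Pairs
import Fermat.Agent.SiegelConstant.Formula

/-!
# The series of two lattices in weight two

The sum over `d` inside the sum over `c` makes sense for every even `k ≥ 2`; in weight two it is the
limit of Hecke's series restricted to `c` in `A`, so it keeps the two transformation laws.
-/

set_option autoImplicit false
set_option linter.unusedSectionVars false
set_option linter.style.haveILetI false

noncomputable section

open NumberField InfinitePlace Module Filter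
open UpperHalfPlane hiding I
open Complex (I)
open scoped Real nonZeroDivisors Classical Topology MatrixGroups ModularForm FourierTransform

namespace FA.PadicEulerFactor

open FA.HeckeFE FA.SiegelKlingen FA.SiegelConstant FA.Eis

variable {K : Type*} [Field K] [NumberField K] [IsTotallyReal K]
variable {A B : (FractionalIdeal (𝓞 K)⁰ K)ˣ}

/-- The first entries. -/
abbrev SubRep : Type _ := {c : Rep B // c.1 ∈ (A : Set K)}

theorem exists_split_equiv :
    ∃ E : (SubRep (A := A) (B := B) × ↥(B : Set K)) ⊕ Rep B ≃ SubOrb A B,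
      (∀ q, (E (Sum.inl q)).1 = Sum.inl (q.1.1, q.2)) ∧ ∀ d, (E (Sum.inr d)).1 = Sum.inr d := by
  let f : (SubRep (A := A) (B := B) × ↥(B : Set K)) ⊕ Rep B → SubOrb A B :=
    Sum.elim (fun q => ⟨Sum.inl (q.1.1, q.2), q.1.2⟩)
      (fun d => ⟨Sum.inr d, ((A : FractionalIdeal (𝓞 K)⁰ K) : Submodule (𝓞 K) K).zero_mem⟩)
  refine ⟨Equiv.ofBijective f ⟨?_, ?_⟩, fun q => rfl, fun d => rfl⟩
  · rintro (⟨⟨c, hc⟩, d⟩ | d) (⟨⟨c', hc'⟩, d'⟩ | d') h <;>
      simp only [f, Sum.elim_inl, Sum.elim_inr, Subtype.mk.injEq, Sum.inl.injEq, Sum.inr.injEq,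
        Prod.mk.injEq, reduceCtorEq] at h
    · obtain ⟨rfl, rfl⟩ := h; rfl
    · exact congrArg Sum.inr h
  · rintro ⟨⟨c, d⟩ | d, h⟩
    · exact ⟨Sum.inl (⟨c, h⟩, d), rfl⟩
    · exact ⟨Sum.inr d, rfl⟩

theorem subSum_split {k : ℕ} (hk : Even k) (hk4 : 4 ≤ k) {z : ℂ} (hz : 0 < z.im) :
    subSum A B k z = (constSum B k : ℂ) +
      ∑' c : SubRep (A := A) (B := B), ∑' d : ↥(B : Set K), eisTerm k z c.1.1 d := by
  obtain ⟨E, hE1, hE2⟩ := exists_split_equiv (A := A) (B := B)
  obtain ⟨g, hg⟩ : ∃ g : SubOrb A B → ℂ,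
      g = fun x => eisTerm k z (repPair B x.1).1 (repPair B x.1).2 := ⟨_, rfl⟩
  have hl : ∀ q, g (E (Sum.inl q)) = eisTerm k z q.1.1.1 q.2 := fun q => by
    simp only [hg, hE1]; rfl
  have hr : ∀ d, g (E (Sum.inr d)) = eisTerm k z 0 d.1 := fun d => by
    simp only [hg, hE2]; rfl
  have hS : Summable fun q : SubRep (A := A) (B := B) × ↥(B : Set K) =>
      eisTerm k z q.1.1.1 q.2 :=
    (summable_eisTerm_prod B hk4 hz).comp_injective
      (i := fun q : SubRep (A := A) (B := B) × ↥(B : Set K) => (q.1.1, q.2))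
      fun q q' h => by
        simp only [Prod.mk.injEq] at h
        exact Prod.ext (Subtype.ext h.1) h.2
  have hz' : Summable fun d : Rep B => eisTerm k z 0 d.1 := by
    simp only [eisTerm_zero hk]
    exact Complex.summable_ofReal.2 (summable_constSum B (by omega))
  have h1 : subSum A B k z = ∑' x, g (E x) := by rw [E.tsum_eq g, hg]; rfl
  rw [h1, Summable.tsum_sum (f := fun x => g (E x)) (by simpa only [Function.comp_def, hl] using hS)
    (by simpa only [Function.comp_def, hr] using hz')]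
  simp only [hl, hr, eisTerm_zero hk]
  rw [hS.tsum_prod, constSum, Complex.ofReal_tsum, add_comm]

variable (A B) in
/-- The constant term plus the iterated sum. -/
def subFun (k : ℕ) (τ : ℍ) : ℂ :=
  (constSum B k : ℂ) +
    ∑' c : SubRep (A := A) (B := B), ∑' d : ↥(B : Set K), eisTerm k (τ : ℂ) c.1.1 d

theorem subFun_eq_subSum {k : ℕ} (hk : Even k) (hk4 : 4 ≤ k) (τ : ℍ) :
    subFun A B k τ = subSum A B k (τ : ℂ) :=
  (subSum_split hk hk4 τ.im_pos).symm

variable (A B) in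
/-- Hecke's series of the two lattices. -/
def heckeSub (s : ℝ) (τ : ℍ) : ℂ :=
  ∑' x : SubOrb A B, heckeTerm s τ (repPair B x.1).1 (repPair B x.1).2

theorem heckeSub_smul {p : ℕ} (h : Nested p A B) {g : SL(2, ℤ)} (hg : (p : ℤ) ∣ g 1 0) (s : ℝ)
    (τ : ℍ) : heckeSub A B s (g • τ) = denom g τ ^ (2 * finrank ℚ K) *
      ((((Complex.normSq (denom g τ)) ^ s) ^ finrank ℚ K : ℝ) : ℂ) * heckeSub A B s τ := by
  obtain ⟨den, hden⟩ : ∃ den : ℂ, den = (g 1 0 : ℂ) * τ + (g 1 1 : ℂ) := ⟨_, rfl⟩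
  have hd : denom g τ = den := by rw [ModularGroup.denom_apply, hden]
  have hden0 : den ≠ 0 := hd ▸ denom_ne_zero _ _
  have hdet : (g 0 0 : K) * (g 1 1 : K) - (g 0 1 : K) * (g 1 0 : K) = 1 := by
    have h' : g 0 0 * g 1 1 - g 0 1 * g 1 0 = 1 := by
      rw [← Matrix.det_fin_two g.1]
      exact g.2
    exact_mod_cast h'
  obtain ⟨c', hc'⟩ := hg
  obtain ⟨e, he⟩ := exists_orbit_equiv (A := A) (B := B) (A' := A) (B' := B) h.le h.le
    (fun q => (q.1 * (g 0 0 : K) + q.2 * (g 1 0 : K), q.1 * (g 0 1 : K) + q.2 * (g 1 1 : K)))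
    (fun q => (q.1 * (g 1 1 : K) - q.2 * (g 1 0 : K), -q.1 * (g 0 1 : K) + q.2 * (g 0 0 : K)))
    (fun u c d => Prod.ext (by ring) (by ring)) (fun u c d => Prod.ext (by ring) (by ring))
    (fun q => Prod.ext (by linear_combination q.1 * hdet) (by linear_combination q.2 * hdet))
    (fun q => Prod.ext (by linear_combination q.1 * hdet) (by linear_combination q.2 * hdet))
    (fun q h1 h2 => ⟨add_mem_lat (int_mul_mem _ h1) (by
      rw [hc', show q.2 * (((p : ℤ) * c' : ℤ) : K) = (p : K) * q.2 * (c' : K) by push_cast; ring]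
      exact int_mul_mem _ (h.mul _ h2)),
      add_mem_lat (int_mul_mem _ (h.le _ h1)) (int_mul_mem _ h2)⟩)
    (fun q h1 h2 => ⟨by
      rw [hc', show q.1 * (g 1 1 : K) - q.2 * (((p : ℤ) * c' : ℤ) : K) =
        q.1 * (g 1 1 : K) + (p : K) * q.2 * ((-c' : ℤ) : K) by push_cast; ring]
      exact add_mem_lat (int_mul_mem _ h1) (int_mul_mem _ (h.mul _ h2)), by
      rw [show -q.1 * (g 0 1 : K) = q.1 * ((-(g 0 1) : ℤ) : K) by push_cast; ring]
      exact add_mem_lat (int_mul_mem _ (h.le _ h1)) (int_mul_mem _ h2)⟩)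
  rw [hd, heckeSub, heckeSub, ← e.tsum_eq fun y : SubOrb A B =>
    heckeTerm s (τ : ℂ) (repPair B y.1).1 (repPair B y.1).2, ← tsum_mul_left]
  refine tsum_congr fun x => ?_
  obtain ⟨m, hm⟩ := he x
  rw [← heckeTerm_unit s (τ : ℂ) m (repPair B (e x).1).1 (repPair B (e x).1).2]
  have e1 := congrArg Prod.fst hm
  have e2 := congrArg Prod.snd hm
  simp only at e1 e2
  rw [← e1, ← e2, heckeTerm, heckeTerm, ← card_places, pow_mul, ← Finset.card_univ,
    Complex.ofReal_pow, ← Finset.prod_const, ← Finset.prod_const, ← Finset.prod_mul_distrib,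
    ← Finset.prod_mul_distrib]
  refine Finset.prod_congr rfl fun w _ => ?_
  obtain ⟨L, hL⟩ : ∃ L : ℂ, L = (remb w ((repPair B x.1).1 * (g 0 0 : K) +
      (repPair B x.1).2 * (g 1 0 : K)) : ℂ) * τ + (remb w ((repPair B x.1).1 * (g 0 1 : K) +
      (repPair B x.1).2 * (g 1 1 : K)) : ℂ) := ⟨_, rfl⟩
  have hL' : (remb w (repPair B x.1).1 : ℂ) * ((g • τ : ℍ) : ℂ) +
      (remb w (repPair B x.1).2 : ℂ) = L / den := by
    rw [eq_div_iff hden0, hL, UpperHalfPlane.specialLinearGroup_apply]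
    simp only [algebraMap_int_eq, eq_intCast, Complex.ofReal_intCast, map_add, map_mul, map_intCast,
      Complex.ofReal_add, Complex.ofReal_mul]
    rw [← hden]
    field_simp
    rw [hden]
    ring
  rw [← hL, hL', div_pow, inv_div, div_eq_mul_inv, Complex.normSq_div,
    Real.div_rpow (Complex.normSq_nonneg _) (Complex.normSq_nonneg _),
    Real.rpow_neg (Complex.normSq_nonneg den), div_inv_eq_mul]
  push_cast
  ring

theorem heckeSub_swap {p : ℕ} [NeZero p] (h : Nested p A B) (s : ℝ) (τ : ℍ) :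
    heckeSub A B s (ModularGroup.S • scalePt p τ) = ((p : ℂ) * τ) ^ (2 * finrank ℚ K) *
      ((((Complex.normSq ((p : ℂ) * τ)) ^ s) ^ finrank ℚ K : ℝ) : ℂ) *
        heckeSub (pMul B p) A s τ := by
  have hp : (p : K) ≠ 0 := Nat.cast_ne_zero.2 (NeZero.ne p)
  obtain ⟨e, he⟩ := exists_orbit_equiv (A := A) (B := B) (A' := pMul B p) (B' := A) h.le h.swap.le
    (fun q => ((p : K) * q.2, -q.1)) (fun q => (-q.2, q.1 / (p : K)))
    (fun u c d => Prod.ext (by ring) (by ring)) (fun u c d => Prod.ext (by ring) (by ring))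
    (fun q => Prod.ext (neg_neg _) (mul_div_cancel_left₀ _ hp))
    (fun q => Prod.ext (mul_div_cancel₀ _ hp) (neg_neg _))
    (fun q h1 h2 => ⟨mem_pMul.2 (by rwa [mul_div_cancel_left₀ _ hp]), by
      rw [show -q.1 = q.1 * ((-1 : ℤ) : K) by push_cast; ring]
      exact int_mul_mem _ h1⟩)
    (fun q h1 h2 => ⟨by
      rw [show -q.2 = q.2 * ((-1 : ℤ) : K) by push_cast; ring]
      exact int_mul_mem _ h2, mem_pMul.1 h1⟩)
  rw [heckeSub, heckeSub, ← e.tsum_eq fun y : SubOrb (pMul B p) A =>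
    heckeTerm s (τ : ℂ) (repPair A y.1).1 (repPair A y.1).2, ← tsum_mul_left]
  refine tsum_congr fun x => ?_
  obtain ⟨m, hm⟩ := he x
  rw [← heckeTerm_unit s (τ : ℂ) m (repPair A (e x).1).1 (repPair A (e x).1).2]
  have e1 := congrArg Prod.fst hm
  have e2 := congrArg Prod.snd hm
  simp only at e1 e2
  rw [← e1, ← e2, heckeTerm, heckeTerm, ← card_places, pow_mul, ← Finset.card_univ,
    Complex.ofReal_pow, ← Finset.prod_const, ← Finset.prod_const, ← Finset.prod_mul_distrib,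
    ← Finset.prod_mul_distrib]
  refine Finset.prod_congr rfl fun w _ => ?_
  have hpz : (p : ℂ) * (τ : ℂ) ≠ 0 :=
    mul_ne_zero (Nat.cast_ne_zero.2 (NeZero.ne p)) (UpperHalfPlane.ne_zero τ)
  obtain ⟨L, hL⟩ : ∃ L : ℂ, L = (remb w ((p : K) * (repPair B x.1).2) : ℂ) * τ +
      (remb w (-(repPair B x.1).1) : ℂ) := ⟨_, rfl⟩
  have hL' : (remb w (repPair B x.1).1 : ℂ) * ((ModularGroup.S • scalePt p τ : ℍ) : ℂ) +
      (remb w (repPair B x.1).2 : ℂ) = L / ((p : ℂ) * τ) := by
    rw [eq_div_iff hpz, hL, coe_S_smul, coe_scalePt, add_mul, mul_assoc _ (-((p : ℂ) * τ)⁻¹),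
      neg_mul, inv_mul_cancel₀ hpz]
    simp only [map_mul, map_neg, map_natCast, Complex.ofReal_mul, Complex.ofReal_neg,
      Complex.ofReal_natCast]
    ring
  rw [← hL, hL', div_pow, inv_div, div_eq_mul_inv (((p : ℂ) * τ) ^ 2), Complex.normSq_div,
    Real.div_rpow (Complex.normSq_nonneg _) (Complex.normSq_nonneg _),
    Real.rpow_neg (Complex.normSq_nonneg ((p : ℂ) * τ)), div_inv_eq_mul]
  push_cast
  ring

/-- **The limit of Hecke's series.** -/
theorem tendsto_heckeSub (hn : 2 ≤ finrank ℚ K) (τ : ℍ) :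
    Tendsto (fun s : ℝ => heckeSub A B s τ) (𝓝[>] 0) (𝓝 (subFun A B 2 τ)) := by
  have hy := τ.im_pos
  have hev : ∀ᶠ s : ℝ in 𝓝[>] 0, 0 < s ∧ s ≤ 1 := by
    filter_upwards [Ioc_mem_nhdsGT zero_lt_one] with s hs using hs
  obtain ⟨i, hi⟩ : ∃ i : SubRep (A := A) (B := B) × ↥(dualIdeal B : Set K) →
      Rep B × ↥(dualIdeal B : Set K), ∀ q, i q = (q.1.1, q.2) := ⟨_, fun _ => rfl⟩
  have hinj : Function.Injective i := fun q q' h => by
    simp only [hi, Prod.mk.injEq] at h
    exact Prod.ext (Subtype.ext h.1) h.2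
  obtain ⟨b, hb, hbb⟩ := exists_tail_bound B τ
  have hcv : ((covol B : ℝ) : ℂ) ≠ 0 := Complex.ofReal_ne_zero.2 (covol_pos B).ne'
  -- the terms at `ν ≠ 0`
  have htail : Tendsto (fun s : ℝ => ∑' q, dualTail B s τ (i q)) (𝓝[>] 0)
      (𝓝 (∑' q, dualTail B 0 τ (i q))) := by
    refine tendsto_tsum_of_dominated_convergence (hb.comp_injective hinj) (fun q => ?_) ?_
    · simp only [dualTail]
      split_ifs with h
      · exact tendsto_const_nhds
      · refine tendsto_finsetProd _ fun w _ => ((Tendsto.mul_const _ ?_).mul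
          (tendsto_fourier_heckeKernel _))
        refine (Complex.continuous_ofReal.tendsto _).comp (Tendsto.div_const ?_ _)
        refine ((Real.continuousAt_const_rpow ?_).tendsto.comp
          (tendsto_neg (0 : ℝ))).mono_left nhdsWithin_le_nhds
        exact pow_ne_zero _ (mul_ne_zero (abs_ne_zero.2 (remb_ne_zero _ (Rep.ne_zero B (i q).1)))
          hy.ne')
    · filter_upwards [hev] with s hs using fun q => hbb s hs.1.le hs.2 (i q)
  have hval : ∑' q, dualTail B 0 τ (i q) = (covol B : ℂ) *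
      ∑' c : SubRep (A := A) (B := B), ∑' d : ↥(B : Set K), eisTerm 2 (τ : ℂ) c.1.1 d := by
    have hS := (summableTerms_two B τ).comp_injective hinj
    simp only [Function.comp_def, hi] at hS
    rw [tsum_congr fun q => dualTail_zero B τ (i q), tsum_mul_left]
    simp only [hi]
    rw [hS.tsum_prod, tsum_congr fun c : SubRep (A := A) (B := B) =>
        (lipschitz_ideal B even_two le_rfl (Rep.ne_zero B c.1) τ).2.tsum_eq,
      tsum_mul_left, mul_assoc _ (factor B 2), ← mul_assoc (factor B 2),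
      mul_inv_cancel₀ (factor_ne_zero B 2), one_mul]
  -- the terms at `ν = 0`
  obtain ⟨M, hM⟩ : ∃ M : ℝ, M = normR B * τ.im ^ finrank ℚ K := ⟨_, rfl⟩
  have hM0 : 0 < M := hM ▸ mul_pos (normR_pos B) (pow_pos hy _)
  have hdz : ∀ (s : ℝ) (c : Rep B), dualTerm s τ c.1 0 =
      (((M ^ 2) ^ (-s) / M * ratio B c.1 ^ (-(1 + 2 * s)) : ℝ) : ℂ) *
        𝓕 (heckeKernel s) 0 ^ finrank ℚ K := fun s c => by
    rw [hM, ← prod_scale, dualTerm, Complex.ofReal_prod, ← card_places, ← Finset.card_univ,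
      ← Finset.prod_const, ← Finset.prod_mul_distrib]
    refine Finset.prod_congr rfl fun w _ => ?_
    simp
  have hzero : Tendsto (fun s : ℝ => ∑' c : SubRep (A := A) (B := B), dualTerm s τ c.1.1 0)
      (𝓝[>] 0) (𝓝 0) := by
    have hg := ((Real.continuousAt_const_rpow (pow_ne_zero 2 hM0.ne') (b := -(0 : ℝ))).tendsto.comp
      (tendsto_neg (0 : ℝ))).mono_left (nhdsWithin_le_nhds (s := Set.Ioi 0))
    have hlim := ((hg.div_const M).mul_const ((2 * π) ^ finrank ℚ K)).mul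
      (tendsto_pow_ratioSum B hn)
    rw [mul_zero] at hlim
    refine squeeze_zero_norm' ?_ hlim
    filter_upwards [hev] with s hs
    simp only [Function.comp_apply, hdz]
    have hsr := summable_ratio B (x := 1 + 2 * s) (by linarith [hs.1])
    have h0 : ∀ c : Rep B, 0 ≤ ratio B c.1 ^ (-(1 + 2 * s)) := fun c =>
      Real.rpow_nonneg (zero_le_one.trans (one_le_ratio_rep B c)) _
    have hc : 0 ≤ (M ^ 2) ^ (-s) / M := by positivity
    obtain ⟨S, hS⟩ : ∃ S : ℝ, S = ∑' c : SubRep (A := A) (B := B),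
        ratio B c.1.1 ^ (-(1 + 2 * s)) := ⟨_, rfl⟩
    have hS0 : 0 ≤ S := hS ▸ tsum_nonneg fun c => h0 c.1
    have hle : S ≤ ratioSum B (1 + 2 * s) := hS ▸
      hsr.tsum_subtype_le (fun c : Rep B => ratio B c.1 ^ (-(1 + 2 * s)))
        {c : Rep B | c.1 ∈ (A : Set K)} h0
    rw [tsum_mul_right, norm_mul, ← Complex.ofReal_tsum, tsum_mul_left, ← hS,
      Complex.norm_real, Real.norm_of_nonneg (mul_nonneg hc hS0), norm_pow]
    have hker := pow_le_pow_left₀ (norm_nonneg _) (norm_fourier_heckeKernel_zero hs.1.le)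
      (finrank ℚ K)
    refine le_trans (mul_le_mul (mul_le_mul_of_nonneg_left hle hc) hker (by positivity)
      (mul_nonneg hc (ratioSum_nonneg B _))) (le_of_eq ?_)
    rw [mul_pow]
    ring
  have hsum := (tendsto_hecke_zero B (τ : ℂ)).add ((hzero.add htail).const_mul ((covol B : ℂ))⁻¹)
  rw [zero_add, hval, ← mul_assoc, inv_mul_cancel₀ hcv, one_mul, ← subFun] at hsum
  refine hsum.congr' ?_
  filter_upwards [hev] with s hs
  have hsI : Summable fun q : SubRep (A := A) (B := B) × ↥(B : Set K) =>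
      heckeTerm s (τ : ℂ) q.1.1.1 q.2 :=
    (summable_hecke_prod B hs.1 τ).comp_injective
      (i := fun q : SubRep (A := A) (B := B) × ↥(B : Set K) => (q.1.1, q.2)) fun q q' h => by
        simp only [Prod.mk.injEq] at h
        exact Prod.ext (Subtype.ext h.1) h.2
  have hsT : Summable fun q => dualTail B s τ (i q) :=
    (Summable.of_norm_bounded hb (hbb s hs.1.le hs.2)).comp_injective hinj
  have hsZ : Summable fun c : SubRep (A := A) (B := B) => dualTerm s τ c.1.1 0 := by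
    simp only [hdz]
    exact (Complex.summable_ofReal.2 (((summable_ratio B (by linarith [hs.1])).comp_injective
      Subtype.val_injective).mul_left _)).mul_right _
  obtain ⟨E, hE1, hE2⟩ := exists_split_equiv (A := A) (B := B)
  have h1 : heckeSub A B s τ = ∑' x, heckeTerm s (τ : ℂ) (repPair B (E x).1).1
      (repPair B (E x).1).2 :=
    (E.tsum_eq fun x : SubOrb A B => heckeTerm s (τ : ℂ) (repPair B x.1).1 (repPair B x.1).2).symm
  have hl : ∀ q : SubRep (A := A) (B := B) × ↥(B : Set K),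
      heckeTerm s (τ : ℂ) (repPair B (E (Sum.inl q)).1).1 (repPair B (E (Sum.inl q)).1).2 =
        heckeTerm s (τ : ℂ) q.1.1.1 q.2 := fun q => by
    rw [hE1]; rfl
  have hr : ∀ d : Rep B,
      heckeTerm s (τ : ℂ) (repPair B (E (Sum.inr d)).1).1 (repPair B (E (Sum.inr d)).1).2 =
        heckeTerm s (τ : ℂ) 0 d.1 := fun d => by
    rw [hE2]; rfl
  rw [h1, Summable.tsum_sum (by simpa only [Function.comp_def, hl] using hsI)
    (by simpa only [Function.comp_def, hr] using summable_hecke_zero B hs.1.le hs.2 (τ : ℂ))]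
  simp only [hl, hr]
  rw [add_comm]
  congr 1
  simp only [hi] at hsT ⊢
  rw [hsI.tsum_prod, tsum_congr fun c : SubRep (A := A) (B := B) =>
      (inner_poisson B hs.1.le hs.2 τ (Rep.ne_zero B c.1)).2, tsum_mul_left, hsT.tsum_prod,
    ← hsZ.tsum_add hsT.prod]
  congr 1
  refine tsum_congr fun c => ?_
  rw [(inner_poisson B hs.1.le hs.2 τ (Rep.ne_zero B c.1)).1.tsum_eq_add_tsum_ite
    ⟨0, zero_mem_ideal _⟩]
  congr 1
  refine tsum_congr fun ν => ?_
  simp only [dualTail, Subtype.ext_iff]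

theorem two_le_finrank {k : ℕ} (hk2 : ¬4 ≤ k) (hk : Even k) (h2 : 2 ≤ k)
    (hw : 4 ≤ k * finrank ℚ K) : k = 2 ∧ 2 ≤ finrank ℚ K := by
  obtain rfl : k = 2 := by
    obtain ⟨j, rfl⟩ := hk
    omega
  exact ⟨rfl, by omega⟩

/-- **Invariance under `Γ₀(p)`**, every weight. -/
theorem subFun_smul {p : ℕ} {k : ℕ} (hk : Even k) (hk2 : 2 ≤ k) (hw : 4 ≤ k * finrank ℚ K)
    (h : Nested p A B) {g : SL(2, ℤ)} (hg : (p : ℤ) ∣ g 1 0) (τ : ℍ) :
    subFun A B k (g • τ) = denom g τ ^ (k * finrank ℚ K) * subFun A B k τ := by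
  by_cases hk4 : 4 ≤ k
  · rw [subFun_eq_subSum hk hk4, subFun_eq_subSum hk hk4, subSum_smul hk h hg τ]
  obtain ⟨rfl, hn⟩ := two_le_finrank hk4 hk hk2 hw
  refine tendsto_nhds_unique
    ((tendsto_heckeSub hn (g • τ)).congr fun s => heckeSub_smul h hg s τ) ?_
  have h1 : Tendsto (fun s : ℝ => ((((Complex.normSq (denom g τ)) ^ s) ^ finrank ℚ K : ℝ) : ℂ))
      (𝓝[>] 0) (𝓝 1) := by
    refine ((Complex.continuous_ofReal.comp ((Real.continuous_const_rpow
      (Complex.normSq_pos.2 (denom_ne_zero _ _)).ne').pow _)).tendsto' 0 1 ?_).mono_left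
        nhdsWithin_le_nhds
    simp
  have h' := (h1.const_mul (denom g τ ^ (2 * finrank ℚ K))).mul
    (tendsto_heckeSub (A := A) (B := B) hn τ)
  rwa [mul_one] at h'

/-- **The substitution**, every weight. -/
theorem subFun_swap {p : ℕ} [NeZero p] {k : ℕ} (hk : Even k) (hk2 : 2 ≤ k)
    (hw : 4 ≤ k * finrank ℚ K) (h : Nested p A B) (τ : ℍ) :
    subFun A B k (ModularGroup.S • scalePt p τ) * (((p : ℂ) * τ) ^ (k * finrank ℚ K))⁻¹ =
      subFun (pMul B p) A k τ := by
  have hpz : (p : ℂ) * (τ : ℂ) ≠ 0 :=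
    mul_ne_zero (Nat.cast_ne_zero.2 (NeZero.ne p)) (UpperHalfPlane.ne_zero τ)
  by_cases hk4 : 4 ≤ k
  · rw [subFun_eq_subSum hk hk4, subFun_eq_subSum hk hk4, coe_S_smul, coe_scalePt]
    exact subSum_swap hk h (UpperHalfPlane.ne_zero τ)
  obtain ⟨rfl, hn⟩ := two_le_finrank hk4 hk hk2 hw
  rw [mul_inv_eq_iff_eq_mul₀ (pow_ne_zero _ hpz), mul_comm]
  refine tendsto_nhds_unique ((tendsto_heckeSub hn (ModularGroup.S • scalePt p τ)).congr fun s =>
    heckeSub_swap h s τ) ?_
  have h1 : Tendsto (fun s : ℝ => ((((Complex.normSq ((p : ℂ) * τ)) ^ s) ^ finrank ℚ K : ℝ) : ℂ))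
      (𝓝[>] 0) (𝓝 1) := by
    refine ((Complex.continuous_ofReal.comp ((Real.continuous_const_rpow
      (Complex.normSq_pos.2 hpz).ne').pow _)).tendsto' 0 1 ?_).mono_left nhdsWithin_le_nhds
    simp
  have h' := (h1.const_mul (((p : ℂ) * τ) ^ (2 * finrank ℚ K))).mul
    (tendsto_heckeSub (A := pMul B p) (B := A) hn τ)
  rwa [mul_one] at h'

end FA.PadicEulerFactor

end
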